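import Fermat.Agent.CFT.LC.LES
import Fermat.Agent.CFT.LC.Cup
import Fermat.Prelude.Def_GroupCohomology_Selmer

/-!
# Abstract Poitou–Tate: definitions

* `mu χ` : the one-dimensional representation attached to a character `χ`;
* `dtw ρ χ` : the twisted dual `ρ^*(χ)` (this is `(Rep.dualTwist M χ).ρ` of the prelude);
* `evp` : the evaluation pairing `V × V^*(χ) → μ`;
* `Unip ρ` : successive extension of trivial one-dimensional representations;
* `LocalDuality L χ δ` : the package of local duality statements for a group with levels;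
-/

set_option autoImplicit false

namespace Fermat.Agent.CFT.PT

open Fermat.Agent.CFT.LC Module

section Basic

variable {k : Type} [Field k] {G : Type} [Group G] {V : Type} [AddCommGroup V] [Module k V]

/-- The one-dimensional representation attached to a character. -/
noncomputable def mu (χ : G →* kˣ) : Representation k G k :=
  (Representation.trivial k G k).twist χ

@[simp] theorem mu_apply (χ : G →* kˣ) (g : G) (x : k) : mu χ g x = (χ g : k) * x := by
  simp [mu, Representation.twist_apply_apply]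

theorem mu_comp {H : Type} [Group H] (χ : G →* kˣ) (f : H →* G) :
    (mu χ).comp f = mu (χ.comp f) := by
  ext; rfl

/-- The twisted dual. -/
noncomputable def dtw (ρ : Representation k G V) (χ : G →* kˣ) :
    Representation k G (Module.Dual k V) :=
  ρ.dual.twist χ

@[simp] theorem dtw_apply_apply (ρ : Representation k G V) (χ : G →* kˣ) (g : G)
    (f : Module.Dual k V) (v : V) : dtw ρ χ g f v = (χ g : k) * f (ρ g⁻¹ v) := by
  simp [dtw, Representation.twist_apply_apply, Representation.dual_apply,
    Module.Dual.transpose_apply]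

theorem dtw_comp {H : Type} [Group H] (ρ : Representation k G V) (χ : G →* kˣ) (f : H →* G) :
    (dtw ρ χ).comp f = dtw (ρ.comp f) (χ.comp f) := by
  refine MonoidHom.ext fun h => LinearMap.ext fun φ => LinearMap.ext fun v => ?_
  rw [MonoidHom.comp_apply, dtw_apply_apply, dtw_apply_apply, MonoidHom.comp_apply,
    MonoidHom.comp_apply, map_inv f]

/-- The evaluation pairing `V × V^* → k`. -/
def evp (k : Type) [Field k] (V : Type) [AddCommGroup V] [Module k V] :
    V →ₗ[k] Module.Dual k V →ₗ[k] k := Module.Dual.eval k V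

@[simp] theorem evp_apply (v : V) (f : Module.Dual k V) : evp k V v f = f v := rfl

theorem evp_isPairing (ρ : Representation k G V) (χ : G →* kˣ) :
    IsPairing ρ (dtw ρ χ) (mu χ) (evp k V) := by
  intro g v f
  rw [evp_apply, dtw_apply_apply, mu_apply, evp_apply, ← Module.End.mul_apply, ← map_mul,
    inv_mul_cancel, map_one, Module.End.one_apply]

/-- continuity of a character: its kernel contains a level -/
def ContChar (L : Lvl G) (χ : G →* kˣ) : Prop := ∃ N ∈ L.levels, N ≤ χ.ker

theorem ContChar.comp {H : Type} [Group H] {L : Lvl G} {LH : Lvl H} {χ : G →* kˣ}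
    (h : ContChar L χ) {f : H →* G} (hf : LH.Cont L f) : ContChar LH (χ.comp f) := by
  obtain ⟨N, hN, h⟩ := h
  obtain ⟨N', hN', h'⟩ := hf N hN
  exact ⟨N', hN', fun x hx => h (h' hx)⟩

theorem smooth_of_trivial {L : Lvl G} {ρ : Representation k G V} {N : Subgroup G}
    (hN : N ∈ L.levels) (h : ∀ g ∈ N, ρ g = 1) : Smooth L ρ :=
  fun v => ⟨N, hN, fun g hg => by rw [h g hg]; rfl⟩

/-- A smooth finite-dimensional representation is trivial on a level. -/
theorem exists_level_trivial [FiniteDimensional k V] {L : Lvl G} {ρ : Representation k G V}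
    (h : Smooth L ρ) : ∃ N ∈ L.levels, ∀ g ∈ N, ρ g = 1 := by
  classical
  obtain ⟨N, hN, h1⟩ := h.exists_level_of_finite
    (Set.finite_range (Module.finBasis k V))
  refine ⟨N, hN, fun g hg => ?_⟩
  refine (Module.finBasis k V).ext fun i => ?_
  rw [h1 g hg _ ⟨i, rfl⟩]
  rfl

/-- `exists_level_trivial` below a given open subgroup. -/
theorem exists_level_trivial_le [FiniteDimensional k V] {L : Lvl G} {ρ : Representation k G V}
    (h : Smooth L ρ) {U : Subgroup G} (hU : L.IsOpen U) :
    ∃ N ∈ L.levels, N ≤ U ∧ ∀ g ∈ N, ρ g = 1 := by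
  obtain ⟨N, hN, h1⟩ := exists_level_trivial h
  obtain ⟨N', hN', h'⟩ := hU
  obtain ⟨W, hW, h2, h3⟩ := L.directed N hN N' hN'
  exact ⟨W, hW, h3.trans h', fun g hg => h1 g (h2 hg)⟩

theorem smooth_mu {L : Lvl G} {χ : G →* kˣ} (h : ContChar L χ) : Smooth L (mu χ) := by
  obtain ⟨N, hN, h⟩ := h
  refine smooth_of_trivial hN fun g hg => ?_
  refine LinearMap.ext fun x => ?_
  have : χ g = 1 := h hg
  simp [mu_apply, this]

theorem smooth_dtw [FiniteDimensional k V] {L : Lvl G} {ρ : Representation k G V}
    (hρ : Smooth L ρ) {χ : G →* kˣ} (h : ContChar L χ) : Smooth L (dtw ρ χ) := by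
  obtain ⟨N, hN, hle, h1⟩ := exists_level_trivial_le hρ (U := χ.ker) (by
    obtain ⟨N, hN, h⟩ := h; exact ⟨N, hN, h⟩)
  refine smooth_of_trivial hN fun g hg => ?_
  refine LinearMap.ext fun f => LinearMap.ext fun v => ?_
  have h2 : χ g = 1 := hle hg
  rw [dtw_apply_apply, h2, h1 g⁻¹ (N.inv_mem hg)]
  simp

/-- `ρ` is a successive extension of trivial one-dimensional representations. -/
def Unip (ρ : Representation k G V) : Prop :=
  ∀ W : Submodule k V, (∀ g, ∀ w ∈ W, ρ g w ∈ W) → W ≠ ⊤ → ∃ v ∉ W, ∀ g, ρ g v - v ∈ W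

end Basic

section Pairings

variable {k : Type} [Field k] {G : Type} [Group G] {V : Type} [AddCommGroup V] [Module k V]

/-- The pairing `H²(V) × H⁰(V') → k` attached to a functional `inv : H²(μ) → k`. -/
noncomputable def pair20 {L : Lvl G} (χ : G →* kˣ) (inv : LC.H2 (mu χ) L →ₗ[k] k)
    (ρ : Representation k G V) : LC.H2 ρ L →ₗ[k] LC.H0 (dtw ρ χ) →ₗ[k] k :=
  (cup20 (evp_isPairing ρ χ) L).compr₂ inv

/-- The pairing `H¹(V) × H¹(V') → k` attached to a functional `inv : H²(μ) → k`. -/
noncomputable def pair11 {L : Lvl G} (χ : G →* kˣ) (inv : LC.H2 (mu χ) L →ₗ[k] k)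
    (ρ : Representation k G V) (h : Smooth L (dtw ρ χ)) :
    LC.H1 ρ L →ₗ[k] LC.H1 (dtw ρ χ) L →ₗ[k] k :=
  (cup11 (evp_isPairing ρ χ) h).compr₂ inv

end Pairings

/-- The package of local duality statements for a group with levels `L`, character `χ`.
`δ` is the local degree at `p` (`[k_v : ℚ_p]` if `v ∣ p`, and `0` otherwise). -/
structure LocalDuality {k : Type} [Field k] {G : Type} [Group G] (L : Lvl G) (χ : G →* kˣ)
    (δ : ℕ) where
  /-- the local invariant -/
  inv : LC.H2 (mu χ) L →ₗ[k] k
  cont : ContChar L χ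
  fin1 : ∀ {V : Type} [AddCommGroup V] [Module k V] [FiniteDimensional k V]
    (ρ : Representation k G V), Smooth L ρ → FiniteDimensional k (LC.H1 ρ L)
  fin2 : ∀ {V : Type} [AddCommGroup V] [Module k V] [FiniteDimensional k V]
    (ρ : Representation k G V), Smooth L ρ → FiniteDimensional k (LC.H2 ρ L)
  bij : ∀ {V : Type} [AddCommGroup V] [Module k V] [FiniteDimensional k V]
    (ρ : Representation k G V), Smooth L ρ → Function.Bijective (pair20 χ inv ρ).flip
  left : ∀ {V : Type} [AddCommGroup V] [Module k V] [FiniteDimensional k V]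
    (ρ : Representation k G V) (_ : Smooth L ρ) (h' : Smooth L (dtw ρ χ)) (x : LC.H1 ρ L),
    (∀ y, pair11 χ inv ρ h' x y = 0) → x = 0
  right : ∀ {V : Type} [AddCommGroup V] [Module k V] [FiniteDimensional k V]
    (ρ : Representation k G V) (_ : Smooth L ρ) (h' : Smooth L (dtw ρ χ))
    (y : LC.H1 (dtw ρ χ) L), (∀ x, pair11 χ inv ρ h' x y = 0) → y = 0
  euler : ∀ (U : Subgroup G), L.IsOpen U → U ≤ χ.ker →
    ∀ {V : Type} [AddCommGroup V] [Module k V] [FiniteDimensional k V]
    (ρ : Representation k U V), Smooth (L.restrict U) ρ → Unip ρ →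
    finrank k (LC.H1 ρ (L.restrict U)) =
      finrank k (LC.H0 ρ) + finrank k (LC.H2 ρ (L.restrict U)) + δ * U.index * finrank k V

end Fermat.Agent.CFT.PT
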