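import Fermat.Agent.CFT.PT.Loc
import Fermat.Agent.CFT.LC.FunRep

/-!
# Abstract Poitou–Tate: the global inputs

For a group `G` with levels `L`, local groups `r v : Γ v →* G`, a character `χ`:

* `HRec inv` : reciprocity;
* `HG2` : the cokernel of localisation on `H²(Fun(G/N', μ))` is at most one-dimensional
  for a cofinal family of levels `N'` (piece D3);
* `HG3` : the Euler characteristic inequality for open subgroups `U ≤ ker χ` (piece D2).
-/

set_option autoImplicit false
set_option linter.unusedSectionVars false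

namespace Fermat.Agent.CFT.PT

open Fermat.Agent.CFT.LC Module

variable {k : Type} [Field k] {G : Type} [Group G] (L : Lvl G) (χ : G →* kˣ)
  {ι : Type} [Fintype ι] {Γ : ι → Type} [∀ v, Group (Γ v)] (LΓ : ∀ v, Lvl (Γ v))
  (r : ∀ v, Γ v →* G) (hr : ∀ v, (LΓ v).Cont L (r v))

/-- the permutation action of `G` on `G ⧸ N` -/
abbrev permQ (N : Subgroup G) : G →* Equiv.Perm (G ⧸ N) := MulAction.toPermHom G (G ⧸ N)

/-- Reciprocity: the sum of the local invariants of a global class is zero. -/
def HRec (inv : ∀ v, LC.H2 (mu (χ.comp (r v))) (LΓ v) →ₗ[k] k) : Prop :=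
  ∀ z : LC.H2 (mu χ) L, ∑ v, inv v ((resMu χ (r v) (hr v)).H2 z) = 0

/-- The cokernel of localisation on `H²(Fun(G/N', μ))` is at most one-dimensional
for a cofinal family of levels `N'`. (The target is finite-dimensional by local duality.) -/
def HG2 : Prop :=
  ∀ N ∈ L.levels, ∃ N' ∈ L.levels, N' ≤ N ∧ N' ≤ χ.ker ∧
    finrank k (∀ v, LC.H2 ((funRep (permQ N') (mu χ)).comp (r v)) (LΓ v)) ≤
      finrank k (LinearMap.range (loc2 L LΓ r hr (funRep (permQ N') (mu χ)))) + 1

/-- The Euler characteristic inequality for open subgroups `U ≤ ker χ`. -/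
def HG3 : Prop :=
  ∀ U : Subgroup G, L.IsOpen U → U ≤ χ.ker →
    FiniteDimensional k (LC.H1 (Representation.trivial k U k) (L.restrict U)) ∧
    FiniteDimensional k (LC.H2 (Representation.trivial k U k) (L.restrict U)) ∧
    2 * (finrank k (LC.H2 (Representation.trivial k U k) (L.restrict U)) + 1) + U.index ≤
      2 * finrank k (LC.H1 (Representation.trivial k U k) (L.restrict U))

end Fermat.Agent.CFT.PT
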