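import Fermat.Agent.CFT.PT.Inputs
import Fermat.Agent.CFT.LC.Tools

/-!
# The Euler characteristic inequality for unipotent coefficients

* `Unip.comp`, `Unip.quot`, `Unip.exists_fixed`;
* `euler_unip` : the inequality `2 (h⁰ + h²) + [G : P] dim V ≤ 2 h¹` for an open subgroup
  `P ≤ ker χ` and a unipotent representation of `P`;
* `euler_fun` : the same for `Fun(G/P, V)`;
* `fin_of_unip` : finiteness of `H¹`, `H²`.
-/

set_option autoImplicit false
set_option linter.unusedSectionVars false

namespace Fermat.Agent.CFT.PT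

open Fermat.Agent.CFT.LC Module

section LinAlg

variable {k : Type*} [Field k] {A0 B0 C0 A1 B1 C1 A2 B2 C2 : Type*}
  [AddCommGroup A0] [Module k A0] [AddCommGroup B0] [Module k B0] [AddCommGroup C0] [Module k C0]
  [AddCommGroup A1] [Module k A1] [AddCommGroup B1] [Module k B1] [AddCommGroup C1] [Module k C1]
  [AddCommGroup A2] [Module k A2] [AddCommGroup B2] [Module k B2] [AddCommGroup C2] [Module k C2]

/-- The dimension count in a long exact sequence of length nine (no surjectivity at the end). -/
theorem finrank_les {f0 : A0 →ₗ[k] B0} {g0 : B0 →ₗ[k] C0} {d0 : C0 →ₗ[k] A1}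
    {f1 : A1 →ₗ[k] B1} {g1 : B1 →ₗ[k] C1} {d1 : C1 →ₗ[k] A2} {f2 : A2 →ₗ[k] B2}
    {g2 : B2 →ₗ[k] C2} (h0 : Function.Injective f0) (h1 : Function.Exact f0 g0)
    (h2 : Function.Exact g0 d0) (h3 : Function.Exact d0 f1) (h4 : Function.Exact f1 g1)
    (h5 : Function.Exact g1 d1) (h6 : Function.Exact d1 f2) (h7 : Function.Exact f2 g2)
    (fA0 : Module.Finite k A0) (fC0 : Module.Finite k C0) (fA1 : Module.Finite k A1)
    (fC1 : Module.Finite k C1) (fA2 : Module.Finite k A2) (fC2 : Module.Finite k C2) :
    Module.Finite k B1 ∧ Module.Finite k B2 ∧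
      finrank k B0 + finrank k B2 + (finrank k A1 + finrank k C1) ≤
        finrank k B1 + (finrank k A0 + finrank k A2) + (finrank k C0 + finrank k C2) := by
  have fB0 : Module.Finite k B0 := finite_of_exact h1
  have fB1 : Module.Finite k B1 := finite_of_exact h4
  have fB2 : Module.Finite k B2 := finite_of_exact h7
  refine ⟨fB1, fB2, ?_⟩
  have e0 : finrank k A0 = finrank k (LinearMap.range f0) :=
    (LinearEquiv.ofInjective f0 h0).finrank_eq
  have e1 := finrank_eq_of_exact h1
  have e2 := finrank_eq_of_exact h2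
  have e3 := finrank_eq_of_exact h3
  have e4 := finrank_eq_of_exact h4
  have e5 := finrank_eq_of_exact h5
  have e6 := finrank_eq_of_exact h6
  have e7 := finrank_eq_of_exact h7
  have e8 : finrank k (LinearMap.range g2) ≤ finrank k C2 := Submodule.finrank_le _
  omega

end LinAlg

section Unip

variable {k : Type} [Field k] {G H : Type} [Group G] [Group H]
  {V W : Type} [AddCommGroup V] [Module k V] [AddCommGroup W] [Module k W]

/-- the largest stable subspace contained in `F` -/
def core (ρ : Representation k G V) (F : Submodule k V) : Submodule k V where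
  carrier := {v | ∀ g, ρ g v ∈ F}
  zero_mem' g := by rw [map_zero]; exact F.zero_mem
  add_mem' h h' g := by rw [map_add]; exact F.add_mem (h g) (h' g)
  smul_mem' a v h g := by rw [map_smul]; exact F.smul_mem a (h g)

theorem mem_core {ρ : Representation k G V} {F : Submodule k V} {v : V} :
    v ∈ core ρ F ↔ ∀ g, ρ g v ∈ F := Iff.rfl

theorem core_le (ρ : Representation k G V) (F : Submodule k V) : core ρ F ≤ F := by
  intro v hv
  have := hv 1
  rwa [map_one] at this

theorem core_stable (ρ : Representation k G V) (F : Submodule k V) (g : G) {v : V}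
    (hv : v ∈ core ρ F) : ρ g v ∈ core ρ F := by
  intro h
  rw [← Module.End.mul_apply, ← map_mul]
  exact hv (h * g)

/-- Unipotence is inherited by restriction along any homomorphism. -/
theorem Unip.comp {ρ : Representation k G V} (h : Unip ρ) (f : H →* G) : Unip (ρ.comp f) := by
  intro F _ hF
  have h1 : core ρ F ≠ ⊤ := fun h2 => hF (eq_top_iff.mpr (h2 ▸ core_le ρ F))
  obtain ⟨v, hv, hv'⟩ := h (core ρ F) (fun g w hw => core_stable ρ F g hw) h1
  refine ⟨v, fun hvF => hv ?_, fun g => core_le ρ F (hv' (f g))⟩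
  intro g
  have h2 := core_le ρ F (hv' g)
  have h3 : ρ g v = (ρ g v - v) + v := by abel
  rw [h3]
  exact F.add_mem h2 hvF

/-- Unipotence is inherited by equivariant quotients. -/
theorem Unip.of_surjective {ρ : Representation k G V} {σ : Representation k G W} (h : Unip ρ)
    (q : V →ₗ[k] W) (hq : Function.Surjective q) (hc : ∀ g v, q (ρ g v) = σ g (q v)) :
    Unip σ := by
  intro F hF hF'
  obtain ⟨v, hv, hv'⟩ := h (F.comap q) (fun g w hw => by
    rw [Submodule.mem_comap, hc]
    exact hF g _ hw) (fun h1 => hF' (by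
      rw [eq_top_iff]
      intro w _
      obtain ⟨v, rfl⟩ := hq w
      have : v ∈ F.comap q := by rw [h1]; trivial
      exact this))
  refine ⟨q v, hv, fun g => ?_⟩
  have := hv' g
  rwa [Submodule.mem_comap, map_sub, hc] at this

/-- Unipotence is inherited by equivariantly embedded subspaces. -/
theorem Unip.of_injective {ρ : Representation k G V} {σ : Representation k G W} (h : Unip σ)
    (i : V →ₗ[k] W) (hi : Function.Injective i) (hc : ∀ g v, i (ρ g v) = σ g (i v))
    [FiniteDimensional k W] : Unip ρ := by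
  -- a stable subspace `F` of `V`; look at the largest stable `E ≤ W` with `i⁻¹(E) ≤ F`
  intro F hF hF'
  classical
  -- choose a stable subspace `E` of `W` of maximal dimension with `i⁻¹ E ≤ F`
  let S : Set (Submodule k W) := {E | (∀ g, ∀ w ∈ E, σ g w ∈ E) ∧ E.comap i ≤ F ∧ F.map i ≤ E}
  have hne : S.Nonempty := by
    refine ⟨F.map i, ?_, ?_, le_rfl⟩
    · rintro g _ ⟨v, hv, rfl⟩
      exact ⟨ρ g v, hF g v hv, hc g v⟩
    · rw [Submodule.comap_map_eq_of_injective hi]
  obtain ⟨E, hE, hmax⟩ := wellFounded_gt.has_min S hne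
  have hEtop : E ≠ ⊤ := by
    rintro rfl
    exact hF' (eq_top_iff.mpr (by simpa using hE.2.1))
  obtain ⟨w, hw, hw'⟩ := h E hE.1 hEtop
  -- `E' = E + k w` is stable and strictly larger, so `i⁻¹ E'` is not contained in `F`
  let E' := E ⊔ Submodule.span k {w}
  have hE' : ∀ g, ∀ x ∈ E', σ g x ∈ E' := by
    intro g x hx
    obtain ⟨e, he, y, hy, rfl⟩ := Submodule.mem_sup.mp hx
    obtain ⟨a, rfl⟩ := Submodule.mem_span_singleton.mp hy
    rw [map_add, map_smul]
    refine E'.add_mem ((le_sup_left : E ≤ E') (hE.1 g e he)) (E'.smul_mem a ?_)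
    have h1 : σ g w = (σ g w - w) + w := by abel
    rw [h1]
    exact E'.add_mem ((le_sup_left : E ≤ E') (hw' g))
      ((le_sup_right : Submodule.span k {w} ≤ E') (Submodule.mem_span_singleton_self w))
  have hlt : E < E' := by
    refine lt_of_le_of_ne le_sup_left fun h1 => hw ?_
    rw [h1]
    exact (le_sup_right : Submodule.span k {w} ≤ E') (Submodule.mem_span_singleton_self w)
  have hnot : ¬ E'.comap i ≤ F := fun h1 => hmax E' ⟨hE', h1, hE.2.2.trans le_sup_left⟩ hlt
  obtain ⟨v, hv, hvF⟩ := SetLike.not_le_iff_exists.mp hnot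
  refine ⟨v, hvF, fun g => ?_⟩
  apply hE.2.1
  rw [Submodule.mem_comap, map_sub, hc]
  obtain ⟨e, he, y, hy, hvy⟩ := Submodule.mem_sup.mp (Submodule.mem_comap.mp hv)
  obtain ⟨a, rfl⟩ := Submodule.mem_span_singleton.mp hy
  rw [← hvy, map_add, map_smul]
  have h1 : σ g e + a • σ g w - (e + a • w) = (σ g e - e) + a • (σ g w - w) := by
    rw [smul_sub]; abel
  rw [h1]
  exact E.add_mem (E.sub_mem (hE.1 g e he) he) (E.smul_mem a (hw' g))

end Unip

section EulerUnip

variable {k : Type} [Field k] {G : Type} [Group G] {V : Type} [AddCommGroup V] [Module k V]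

/-- the representation on the quotient by a fixed line -/
def quoLine (ρ : Representation k G V) (v : V) (hv : ∀ g, ρ g v = v) :
    Representation k G (V ⧸ Submodule.span k {v}) where
  toFun g := (Submodule.span k {v}).mapQ (Submodule.span k {v}) (ρ g) (by
    rw [Submodule.span_singleton_le_iff_mem, Submodule.mem_comap, hv]
    exact Submodule.mem_span_singleton_self v)
  map_one' := by
    refine LinearMap.ext fun x => ?_
    obtain ⟨x, rfl⟩ := Submodule.mkQ_surjective _ x
    rw [Submodule.mkQ_apply, Submodule.mapQ_apply, map_one]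
    rfl
  map_mul' g h := by
    refine LinearMap.ext fun x => ?_
    obtain ⟨x, rfl⟩ := Submodule.mkQ_surjective _ x
    rw [Module.End.mul_apply, Submodule.mkQ_apply, Submodule.mapQ_apply, Submodule.mapQ_apply,
      Submodule.mapQ_apply, map_mul]
    rfl

/-- the short exact sequence of a fixed line -/
noncomputable def lineSES {L : Lvl G} (ρ : Representation k G V) (hρ : Smooth L ρ) (v : V)
    (hv : ∀ g, ρ g v = v) (hv0 : v ≠ 0) :
    SES L (Representation.trivial k G k) ρ (quoLine ρ v hv) where
  i := LinearMap.toSpanSingleton k V v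
  q := (Submodule.span k {v}).mkQ
  i_comm g a := by
    show a • v = ρ g (a • v)
    rw [map_smul, hv]
  q_comm g b := rfl
  inj := by
    intro a b hab
    have h1 : a • v = b • v := hab
    exact smul_left_injective k hv0 h1
  surj := Submodule.mkQ_surjective _
  exact b hb := by
    have h1 : b ∈ Submodule.span k {v} := by
      rw [← Submodule.ker_mkQ (Submodule.span k {v})]
      exact hb
    obtain ⟨a, ha⟩ := Submodule.mem_span_singleton.mp h1
    exact ⟨a, ha⟩
  q_i a := by
    show (Submodule.span k {v}).mkQ (a • v) = 0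
    rw [← LinearMap.mem_ker, Submodule.ker_mkQ]
    exact Submodule.smul_mem _ _ (Submodule.mem_span_singleton_self v)
  smooth := hρ

variable {L : Lvl G}

/-- An Euler characteristic bound for the trivial module propagates to unipotent modules. -/
theorem euler_of_trivial (c : ℕ)
    (h : Module.Finite k (LC.H1 (Representation.trivial k G k) L) ∧
      Module.Finite k (LC.H2 (Representation.trivial k G k) L) ∧
      2 * (finrank k (LC.H2 (Representation.trivial k G k) L) + 1) + c ≤
        2 * finrank k (LC.H1 (Representation.trivial k G k) L)) (n : ℕ) :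
    ∀ {V : Type} [AddCommGroup V] [Module k V] [FiniteDimensional k V]
      (ρ : Representation k G V), Smooth L ρ → Unip ρ → finrank k V = n →
      Module.Finite k (LC.H1 ρ L) ∧ Module.Finite k (LC.H2 ρ L) ∧
      2 * (finrank k (LC.H0 ρ) + finrank k (LC.H2 ρ L)) + c * n ≤ 2 * finrank k (LC.H1 ρ L) := by
  induction n with
  | zero =>
    intro V _ _ _ ρ hρ hu hV
    have hs : Subsingleton V := finrank_zero_iff.mp hV
    have h1 : Subsingleton (LC.H1 ρ L) := by
      refine ⟨fun x y => ?_⟩
      obtain ⟨x, rfl⟩ := H1.mk_surjective x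
      obtain ⟨y, rfl⟩ := H1.mk_surjective y
      congr 1
      exact Subtype.ext (funext fun g => Subsingleton.elim _ _)
    have h2 : Subsingleton (LC.H2 ρ L) := by
      refine ⟨fun x y => ?_⟩
      obtain ⟨x, rfl⟩ := H2.mk_surjective x
      obtain ⟨y, rfl⟩ := H2.mk_surjective y
      congr 1
      exact Subtype.ext (funext fun g => Subsingleton.elim _ _)
    refine ⟨inferInstance, inferInstance, ?_⟩
    have e0 : finrank k (LC.H0 ρ) = 0 := finrank_zero_of_subsingleton
    have e1 : finrank k (LC.H1 ρ L) = 0 := finrank_zero_of_subsingleton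
    have e2 : finrank k (LC.H2 ρ L) = 0 := finrank_zero_of_subsingleton
    rw [e0, e1, e2, mul_zero]
    exact le_rfl
  | succ n ih =>
    intro V _ _ _ ρ hρ hu hV
    have hne : (⊥ : Submodule k V) ≠ ⊤ := by
      intro h1
      have : Subsingleton V := (Submodule.subsingleton_iff k).mp (subsingleton_of_bot_eq_top h1)
      rw [finrank_zero_of_subsingleton] at hV
      omega
    obtain ⟨v, hv0, hv⟩ := hu ⊥ (fun g w hw => by
      rw [Submodule.mem_bot] at hw ⊢
      rw [hw, map_zero]) hne
    have hv0' : v ≠ 0 := fun h1 => hv0 (by rw [h1]; exact Submodule.zero_mem _)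
    have hv' : ∀ g, ρ g v = v := fun g => by
      have := hv g
      rwa [Submodule.mem_bot, sub_eq_zero] at this
    let s := lineSES (L := L) ρ hρ v hv' hv0'
    have hC : finrank k (V ⧸ Submodule.span k {v}) = n := by
      have h1 := Submodule.finrank_quotient_add_finrank (Submodule.span k {v})
      rw [finrank_span_singleton hv0', hV] at h1
      omega
    obtain ⟨fC1, fC2, hCle⟩ := ih (quoLine ρ v hv') s.smoothC
      (hu.of_surjective (Submodule.span k {v}).mkQ (Submodule.mkQ_surjective _)
        (fun g v => rfl)) hC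
    obtain ⟨fA1, fA2, hAle⟩ := h
    have hA0 : finrank k (LC.H0 (Representation.trivial k G k)) ≤ 1 := by
      have := Submodule.finrank_le (LC.H0 (Representation.trivial k G k))
      rwa [finrank_self] at this
    obtain ⟨fB1, fB2, hle⟩ := finrank_les s.H0_injective s.exact_H0 s.exact_H0_δ0 s.exact_δ0_H1
      s.exact_H1 s.exact_H1_δ1 s.exact_δ1_H2 s.exact_H2 inferInstance inferInstance fA1 fC1 fA2 fC2
    refine ⟨fB1, fB2, ?_⟩
    rw [Nat.mul_succ]
    omega

end EulerUnip

section Main

variable {k : Type} [Field k] {G : Type} [Group G] {L : Lvl G} {χ : G →* kˣ}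

/-- The Euler characteristic inequality for unipotent representations of `P ≤ ker χ`. -/
theorem euler_unip (h3 : HG3 L χ) {P : Subgroup G} (hP : L.IsOpen P) (hPχ : P ≤ χ.ker)
    {V : Type} [AddCommGroup V] [Module k V] [FiniteDimensional k V]
    (ρ : Representation k P V) (hρ : Smooth (L.restrict P) ρ) (hu : Unip ρ) :
    FiniteDimensional k (LC.H1 ρ (L.restrict P)) ∧ FiniteDimensional k (LC.H2 ρ (L.restrict P)) ∧
      2 * (finrank k (LC.H0 ρ) + finrank k (LC.H2 ρ (L.restrict P))) + P.index * finrank k V ≤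
        2 * finrank k (LC.H1 ρ (L.restrict P)) :=
  euler_of_trivial P.index (h3 P hP hPχ) (finrank k V) ρ hρ hu rfl

theorem smooth_comp_subtype {V : Type} [AddCommGroup V] [Module k V]
    {ρ : Representation k G V} (hρ : Smooth L ρ) (P : Subgroup G) :
    Smooth (L.restrict P) (ρ.comp P.subtype) := by
  intro v
  obtain ⟨N, hN, h⟩ := hρ v
  exact ⟨_, Lvl.comap_mem_levels _ hN, fun g hg => h g hg⟩

/-- The Euler characteristic inequality for `Fun(G/P, V)`. -/
theorem euler_fun (h3 : HG3 L χ) {P : Subgroup G} (hP : L.IsOpen P) (hPχ : P ≤ χ.ker)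
    {V : Type} [AddCommGroup V] [Module k V] [FiniteDimensional k V]
    (ρ : Representation k G V) (hρ : Smooth L ρ) (hu : Unip (ρ.comp P.subtype)) :
    FiniteDimensional k (LC.H1 (funRep (permQ P) ρ) L) ∧
      FiniteDimensional k (LC.H2 (funRep (permQ P) ρ) L) ∧
      2 * (finrank k (LC.H0 (funRep (permQ P) ρ)) + finrank k (LC.H2 (funRep (permQ P) ρ) L)) +
        P.index * finrank k V ≤ 2 * finrank k (LC.H1 (funRep (permQ P) ρ) L) := by
  obtain ⟨f1, f2, hle⟩ := euler_unip h3 hP hPχ (ρ.comp P.subtype) (smooth_comp_subtype hρ P) hu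
  have e0 : finrank k (LC.H0 (funRep (permQ P) ρ)) = finrank k (LC.H0 (ρ.comp P.subtype)) :=
    (shapiroQ0 ρ L P).finrank_eq
  have e1 : finrank k (LC.H1 (funRep (permQ P) ρ) L) =
    finrank k (LC.H1 (ρ.comp P.subtype) (L.restrict P)) := (shapiroQ1 ρ hP).finrank_eq
  have e2 : finrank k (LC.H2 (funRep (permQ P) ρ) L) =
    finrank k (LC.H2 (ρ.comp P.subtype) (L.restrict P)) := (shapiroQ2 ρ hP).finrank_eq
  refine ⟨Module.Finite.equiv (shapiroQ1 ρ hP).symm, Module.Finite.equiv (shapiroQ2 ρ hP).symm, ?_⟩
  rw [e0, e1, e2]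
  exact hle

/-- Finiteness of `H¹` and `H²`. -/
theorem fin_of_unip (h3 : HG3 L χ) {P : Subgroup G} (hP : L.IsOpen P) (hPχ : P ≤ χ.ker)
    (hidx : ((P.index : ℕ) : k) ≠ 0)
    {V : Type} [AddCommGroup V] [Module k V] [FiniteDimensional k V]
    (ρ : Representation k G V) (hρ : Smooth L ρ) (hu : Unip (ρ.comp P.subtype)) :
    FiniteDimensional k (LC.H1 ρ L) ∧ FiniteDimensional k (LC.H2 ρ L) := by
  obtain ⟨f1, f2, -⟩ := euler_unip h3 hP hPχ (ρ.comp P.subtype) (smooth_comp_subtype hρ P) hu
  exact ⟨FiniteDimensional.of_injective _ (res_injective_H1 ρ hP (IsUnit.mk0 _ hidx)),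
    FiniteDimensional.of_injective _ (res_injective_H2 ρ hP (IsUnit.mk0 _ hidx))⟩

end Main

end Fermat.Agent.CFT.PT
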