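import Fermat.Agent.CFT.PT.Loc

/-!
# Abstract Poitou–Tate: the extension argument

If `c₁, …, cₙ ∈ Z¹(G, V')` are locally trivial and have independent classes, then
`n ≤ dim Ш²(V)`, provided the "tail formula"
`dim Ш²(V) + Σ_v h⁰(Γ_v, V') = h²(G, V) + h⁰(G, V')` holds for all `V`.
-/

set_option autoImplicit false
set_option linter.unusedSectionVars false

namespace Fermat.Agent.CFT.PT

open Fermat.Agent.CFT.LC Module

section ExtRep

variable {k : Type} [Field k] {G : Type} [Group G] {L : Lvl G}
  {V : Type} [AddCommGroup V] [Module k V] (ρ : Representation k G V) (χ : G →* kˣ)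

/-- `μⁿ` -/
noncomputable def muN (n : ℕ) : Representation k G (Fin n → k) where
  toFun g := (χ g : k) • LinearMap.id
  map_one' := by ext; simp
  map_mul' g h := by
    refine LinearMap.ext fun a => funext fun i => ?_
    simp [mul_assoc, mul_left_comm]

@[simp] theorem muN_apply (n : ℕ) (g : G) (a : Fin n → k) : muN χ n g a = (χ g : k) • a := rfl

variable {n : ℕ} (c : Fin n → Z1 (dtw ρ χ) L)

theorem cocycle_apply (i : Fin n) (g h : G) (w : V) :
    (c i).1 (g * h) w = (χ g : k) * (c i).1 h (ρ g⁻¹ w) + (c i).1 g w := by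
  have h1 := ((mem_Z1 _ _).mp (c i).2).1 g h
  rw [h1, LinearMap.add_apply, dtw_apply_apply]

theorem cocycle_one (i : Fin n) : (c i).1 1 = 0 := Z1.map_one (c i).2

/-- The extension of `V` by `μⁿ` defined by `n` cocycles with values in `V'`. -/
noncomputable def extRep : Representation k G (V × (Fin n → k)) where
  toFun g :=
    { toFun := fun x => (ρ g x.1, fun i => (χ g : k) * x.2 i + (c i).1 g (ρ g x.1))
      map_add' := fun x y => by
        refine Prod.ext (by simp) (funext fun i => ?_)
        simp only [Prod.fst_add, Prod.snd_add, Pi.add_apply, map_add]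
        ring
      map_smul' := fun a x => by
        refine Prod.ext (by simp) (funext fun i => ?_)
        simp only [Prod.smul_fst, Prod.smul_snd, Pi.smul_apply, map_smul, smul_eq_mul,
          RingHom.id_apply]
        ring }
  map_one' := by
    refine LinearMap.ext fun x => Prod.ext (by simp) (funext fun i => ?_)
    simp [cocycle_one]
  map_mul' g h := by
    refine LinearMap.ext fun x => Prod.ext ?_ (funext fun i => ?_)
    · simp
    · simp only [map_mul, Units.val_mul, Module.End.mul_apply, LinearMap.coe_mk, AddHom.coe_mk]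
      rw [cocycle_apply]
      have : ρ g⁻¹ (ρ g (ρ h x.1)) = ρ h x.1 := by
        rw [← Module.End.mul_apply, ← map_mul, inv_mul_cancel, map_one, Module.End.one_apply]
      rw [this]
      ring

@[simp] theorem extRep_fst (g : G) (x : V × (Fin n → k)) : (extRep ρ χ c g x).1 = ρ g x.1 := rfl

@[simp] theorem extRep_snd (g : G) (x : V × (Fin n → k)) (i : Fin n) :
    (extRep ρ χ c g x).2 i = (χ g : k) * x.2 i + (c i).1 g (ρ g x.1) := rfl

variable [FiniteDimensional k V] (hρ : Smooth L ρ) (hχ : ContChar L χ)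

include hχ in
theorem smooth_muN (n : ℕ) : Smooth L (muN χ n) := by
  obtain ⟨N, hN, h⟩ := hχ
  refine smooth_of_trivial hN fun g hg => ?_
  refine LinearMap.ext fun x => ?_
  have : χ g = 1 := h hg
  simp [muN_apply, this]

include hρ hχ in
theorem smooth_extRep : Smooth L (extRep ρ χ c) := by
  classical
  obtain ⟨N, hN, hle, h1⟩ := exists_level_trivial_le hρ (U := χ.ker) (by
    obtain ⟨N, hN, h⟩ := hχ; exact ⟨N, hN, h⟩)
  have h2 : ∀ i, ∃ M ∈ L.levels, ∀ g, ∀ s ∈ M, (c i).1 (g * s) = (c i).1 g := fun i =>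
    ((mem_Z1 _ _).mp (c i).2).2
  choose M hM hc using h2
  obtain ⟨W, hW, h3⟩ := L.exists_level_le_finite M hM
  obtain ⟨W', hW', h4, h5⟩ := L.directed W hW N hN
  refine smooth_of_trivial hW' fun g hg => ?_
  refine LinearMap.ext fun x => Prod.ext ?_ (funext fun i => ?_)
  · rw [extRep_fst, h1 g (h5 hg)]; rfl
  · have h6 : χ g = 1 := hle (h5 hg)
    have h7 : (c i).1 g = 0 := by
      have := hc i 1 g (h3 i (h4 hg))
      rw [one_mul, cocycle_one] at this
      exact this
    rw [extRep_snd, h6, h7]
    simp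

/-- the short exact sequence `0 → μⁿ → ext → V → 0` -/
noncomputable def extSES : SES L (muN χ n) (extRep ρ χ c) ρ where
  i := LinearMap.inr k V (Fin n → k)
  q := LinearMap.fst k V (Fin n → k)
  i_comm g a := by
    refine Prod.ext (by simp) (funext fun i => ?_)
    simp
  q_comm g b := rfl
  inj := LinearMap.inr_injective
  surj := LinearMap.fst_surjective
  exact b hb := ⟨b.2, Prod.ext (by simpa using hb.symm) rfl⟩
  q_i a := rfl
  smooth := smooth_extRep ρ χ c hρ hχ

/-- If the classes of the cocycles are independent, invariant functionals on the extension come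
from `V`. -/
theorem finrank_H0_ext_le
    (hind : LinearIndependent k fun i => H1.mk (dtw ρ χ) L (c i)) :
    finrank k (LC.H0 (dtw (extRep ρ χ c) χ)) ≤ finrank k (LC.H0 (dtw ρ χ)) := by
  have hsurj : Function.Surjective (pullH0 (ρ := extRep ρ χ c) (σ := ρ) χ
      (LinearMap.fst k V (Fin n → k)) (fun g v => rfl)) := by
    rintro ⟨F, hF⟩
    rw [mem_H0] at hF
    have hF' : ∀ g (x : V × (Fin n → k)), F (extRep ρ χ c g x) = (χ g : k) * F x := by
      intro g x
      have h1 := congrArg (fun z : Dual k (V × (Fin n → k)) => z (extRep ρ χ c g x)) (hF g)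
      simp only [dtw_apply_apply] at h1
      rw [← h1, ← Module.End.mul_apply, ← map_mul, inv_mul_cancel, map_one, Module.End.one_apply]
    -- coefficients
    set b : Fin n → k := fun i => F (0, Pi.single i 1) with hb
    set φ : Dual k V := F ∘ₗ LinearMap.inl k V (Fin n → k) with hφ
    have hdec : ∀ x : V × (Fin n → k), F x = φ x.1 + ∑ i, b i * x.2 i := by
      intro x
      have h1 : x = (x.1, 0) + (0, x.2) := by simp
      have h2 : F (0, x.2) = ∑ i, b i * x.2 i := by
        have : x.2 = ∑ i, x.2 i • (Pi.single i (1 : k) : Fin n → k) := by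
          ext j; simp [Finset.sum_apply, Pi.single_apply]
        have h3 : ((0 : V), x.2) = ∑ i, x.2 i • ((0 : V), (Pi.single i (1 : k) : Fin n → k)) := by
          refine Prod.ext ?_ ?_
          · rw [Prod.fst_sum]; simp
          · rw [Prod.snd_sum]; exact this
        rw [h3, map_sum]
        exact Finset.sum_congr rfl fun i _ => by rw [map_smul, smul_eq_mul, mul_comm]
      calc F x = F (x.1, 0) + F (0, x.2) := by rw [← map_add, ← h1]
        _ = _ := by rw [h2]; rfl
    -- the relation
    have hrel : ∑ i, b i • H1.mk (dtw ρ χ) L (c i) = 0 := by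
      have : ∑ i, b i • H1.mk (dtw ρ χ) L (c i) = H1.mk (dtw ρ χ) L (∑ i, b i • c i) := by
        rw [map_sum]; exact Finset.sum_congr rfl fun i _ => (map_smul _ _ _).symm
      rw [this, H1.mk_eq_zero_iff]
      refine ⟨φ, fun g => LinearMap.ext fun w => ?_⟩
      have h1 := hF' g (ρ g⁻¹ w, 0)
      rw [hdec, hdec] at h1
      have h2 : ρ g (ρ g⁻¹ w) = w := by
        rw [← Module.End.mul_apply, ← map_mul, mul_inv_cancel, map_one, Module.End.one_apply]
      simp only [extRep_fst, extRep_snd, Pi.zero_apply, mul_zero, zero_add, h2,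
        Finset.sum_const_zero, add_zero] at h1
      rw [LinearMap.sub_apply, dtw_apply_apply, ← h1]
      simp only [AddSubmonoidClass.coe_finsetSum, Finset.sum_apply, Submodule.coe_smul,
        LinearMap.sum_apply]
      simp
    have hb0 : ∀ i, b i = 0 := by
      rw [Fintype.linearIndependent_iff] at hind
      exact hind b hrel
    refine ⟨⟨φ, ?_⟩, ?_⟩
    · rw [mem_H0]
      intro g
      refine LinearMap.ext fun w => ?_
      have h1 := hF' g (ρ g⁻¹ w, 0)
      rw [hdec, hdec] at h1
      have h2 : ρ g (ρ g⁻¹ w) = w := by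
        rw [← Module.End.mul_apply, ← map_mul, mul_inv_cancel, map_one, Module.End.one_apply]
      simp only [extRep_fst, hb0, zero_mul, Finset.sum_const_zero, add_zero, h2] at h1
      rw [dtw_apply_apply, h1]
    · apply Subtype.ext
      refine LinearMap.ext fun x => ?_
      rw [pullH0_coe]
      show φ x.1 = F x
      rw [hdec]
      simp [hb0]
  exact LinearMap.finrank_le_finrank_of_surjective hsurj

end ExtRep

theorem finrank_prod_aux (k : Type) [Field k] (A B : Type) [AddCommGroup A] [Module k A]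
    [AddCommGroup B] [Module k B] [FiniteDimensional k A] [FiniteDimensional k B] :
    finrank k (A × B) = finrank k A + finrank k B := finrank_prod

section Local

variable {k : Type} [Field k] {G H : Type} [Group G] [Group H] {L : Lvl G}
  {V : Type} [AddCommGroup V] [Module k V] [FiniteDimensional k V] (ρ : Representation k G V)
  (χ : G →* kˣ) {n : ℕ} (c : Fin n → Z1 (dtw ρ χ) L) (f : H →* G)

/-- If the cocycles become trivial on `H`, there are many `H`-invariant functionals on the
extension. -/
theorem le_finrank_H0_ext_local (θ : Fin n → Dual k V)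
    (hθ : ∀ i (h : H), (c i).1 (f h) = dtw ρ χ (f h) (θ i) - θ i) :
    finrank k (LC.H0 (dtw (ρ.comp f) (χ.comp f))) + n ≤
      finrank k (LC.H0 (dtw ((extRep ρ χ c).comp f) (χ.comp f))) := by
  -- the injection
  let T : (LC.H0 (dtw (ρ.comp f) (χ.comp f))) × (Fin n → k) →ₗ[k]
      Dual k (V × (Fin n → k)) :=
    { toFun := fun y => (y.1 : Dual k V) ∘ₗ LinearMap.fst k V (Fin n → k) +
        ∑ i, y.2 i • (θ i ∘ₗ LinearMap.fst k V (Fin n → k) +
          LinearMap.proj i ∘ₗ LinearMap.snd k V (Fin n → k))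
      map_add' := fun y z => by
        refine LinearMap.ext fun x => ?_
        simp only [Prod.fst_add, Prod.snd_add, Submodule.coe_add, LinearMap.add_apply,
          LinearMap.comp_apply, LinearMap.sum_apply, LinearMap.smul_apply, Pi.add_apply,
          smul_eq_mul, add_mul, Finset.sum_add_distrib]
        ring
      map_smul' := fun a y => by
        refine LinearMap.ext fun x => ?_
        simp only [Prod.smul_fst, Prod.smul_snd, Submodule.coe_smul, LinearMap.add_apply,
          LinearMap.comp_apply, LinearMap.sum_apply, LinearMap.smul_apply, Pi.smul_apply,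
          smul_eq_mul, RingHom.id_apply, mul_add, Finset.mul_sum, mul_assoc] }
  have hT : ∀ y (x : V × (Fin n → k)),
      T y x = (y.1 : Dual k V) x.1 + ∑ i, y.2 i * (θ i x.1 + x.2 i) := by
    intro y x
    simp [T, LinearMap.sum_apply, mul_add]
  have hTinj : Function.Injective T := by
    rw [injective_iff_map_eq_zero]
    rintro ⟨y, a⟩ h
    have ha : a = 0 := by
      funext i
      have h1 := congrArg (fun z : Dual k (V × (Fin n → k)) => z (0, Pi.single i 1)) h
      simp only [hT, LinearMap.zero_apply, map_zero, zero_add] at h1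
      rw [Finset.sum_eq_single i] at h1
      · simpa using h1
      · intro j _ hj; simp [hj]
      · simp
    subst ha
    have hy : y = 0 := by
      apply Subtype.ext
      refine LinearMap.ext fun v => ?_
      have h1 := congrArg (fun z : Dual k (V × (Fin n → k)) => z (v, 0)) h
      simpa [hT] using h1
    rw [hy]; rfl
  have hTmem : ∀ y, T y ∈ LC.H0 (dtw ((extRep ρ χ c).comp f) (χ.comp f)) := by
    rintro ⟨y, a⟩
    rw [mem_H0]
    intro h
    refine LinearMap.ext fun x => ?_
    obtain ⟨x', rfl⟩ : ∃ x', (extRep ρ χ c) (f h) x' = x := ⟨(extRep ρ χ c) (f h)⁻¹ x, by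
      rw [← Module.End.mul_apply, ← map_mul, mul_inv_cancel, map_one, Module.End.one_apply]⟩
    rw [dtw_apply_apply]
    have e1 : ((extRep ρ χ c).comp f) h⁻¹ ((extRep ρ χ c) (f h) x') = x' := by
      rw [MonoidHom.comp_apply, map_inv f, ← Module.End.mul_apply, ← map_mul, inv_mul_cancel,
        map_one, Module.End.one_apply]
    rw [e1, hT, hT]
    have hy := congrArg (fun z : Dual k V => z (ρ (f h) x'.1)) ((mem_H0 _).mp y.2 h)
    simp only [dtw_apply_apply] at hy
    have e2 : (ρ.comp f) h⁻¹ (ρ (f h) x'.1) = x'.1 := by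
      rw [MonoidHom.comp_apply, map_inv f, ← Module.End.mul_apply, ← map_mul, inv_mul_cancel,
        map_one, Module.End.one_apply]
    rw [e2] at hy
    rw [extRep_fst, ← hy, mul_add, Finset.mul_sum]
    congr 1
    refine Finset.sum_congr rfl fun i _ => ?_
    rw [extRep_snd, hθ, LinearMap.sub_apply, dtw_apply_apply]
    have e3 : ρ (f h)⁻¹ (ρ (f h) x'.1) = x'.1 := by
      rw [← Module.End.mul_apply, ← map_mul, inv_mul_cancel, map_one, Module.End.one_apply]
    rw [e3, MonoidHom.comp_apply]
    ring
  let T' : (LC.H0 (dtw (ρ.comp f) (χ.comp f))) × (Fin n → k) →ₗ[k]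
      LC.H0 (dtw ((extRep ρ χ c).comp f) (χ.comp f)) := T.codRestrict _ hTmem
  have hT'inj : Function.Injective T' := fun a b h => hTinj (congrArg Subtype.val h)
  have h1 := LinearMap.finrank_le_finrank_of_injective hT'inj
  have h2 := finrank_prod_aux k (LC.H0 (dtw (ρ.comp f) (χ.comp f))) (Fin n → k)
  rw [finrank_fin_fun] at h2
  exact h2.symm.le.trans h1

theorem finrank_H0_muN (n : ℕ) : finrank k (LC.H0 (dtw (muN χ n) χ)) = n := by
  have : LC.H0 (dtw (muN χ n) χ) = ⊤ := by
    rw [eq_top_iff]
    intro F _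
    rw [mem_H0]
    intro g
    refine LinearMap.ext fun x => ?_
    rw [dtw_apply_apply, muN_apply, map_smul, smul_eq_mul, ← mul_assoc, ← Units.val_mul,
      ← map_mul, mul_inv_cancel, map_one]
    simp
  rw [this, finrank_top, Subspace.dual_finrank_eq, finrank_fin_fun]

theorem muN_comp (n : ℕ) : (muN χ n).comp f = muN (χ.comp f) n := rfl

end Local

section Count

variable {k : Type} [Field k] {G : Type} [Group G] (L : Lvl G) (χ : G →* kˣ)
  {ι : Type} [Fintype ι] {Γ : ι → Type} [∀ v, Group (Γ v)] (LΓ : ∀ v, Lvl (Γ v))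
  (r : ∀ v, Γ v →* G) (hr : ∀ v, (LΓ v).Cont L (r v))

/-- the tail formula -/
def TailFormula : Prop :=
  ∀ {V : Type} [AddCommGroup V] [Module k V] [FiniteDimensional k V]
    (ρ : Representation k G V), Smooth L ρ →
    finrank k (Sha2 L LΓ r hr ρ) +
        ∑ v, finrank k (LC.H0 (dtw (ρ.comp (r v)) (χ.comp (r v)))) =
      finrank k (LC.H2 ρ L) + finrank k (LC.H0 (dtw ρ χ))

/-- finiteness of `H²` -/
def FinH2 : Prop :=
  ∀ {V : Type} [AddCommGroup V] [Module k V] [FiniteDimensional k V]
    (ρ : Representation k G V), Smooth L ρ → FiniteDimensional k (LC.H2 ρ L)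

variable {L χ LΓ r hr}

theorem ext_bound (hT : TailFormula L χ LΓ r hr) (hF : FinH2 (k := k) L)
    (hχ : ContChar L χ)
    {V : Type} [AddCommGroup V] [Module k V] [FiniteDimensional k V]
    (ρ : Representation k G V) (hρ : Smooth L ρ) {n : ℕ} (c : Fin n → Z1 (dtw ρ χ) L)
    (hind : LinearIndependent k fun i => H1.mk (dtw ρ χ) L (c i))
    (hloc : ∀ i, H1.mk (dtw ρ χ) L (c i) ∈ Sha1 L LΓ r hr (dtw ρ χ)) :
    n ≤ finrank k (Sha2 L LΓ r hr ρ) := by
  classical
  set s := extSES ρ χ c hρ hχ with hs
  have hsE : Smooth L (extRep ρ χ c) := smooth_extRep ρ χ c hρ hχ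
  have hsM : Smooth L (muN χ n) := smooth_muN χ hχ n
  have := hF ρ hρ
  have := hF _ hsE
  have := hF _ hsM
  have T1 := hT ρ hρ
  have T2 := hT _ hsE
  have T3 := hT _ hsM
  rw [finrank_H0_muN] at T3
  have T3' : ∑ v, finrank k (LC.H0 (dtw ((muN χ n).comp (r v)) (χ.comp (r v)))) =
      Fintype.card ι * n := by
    rw [Finset.sum_congr rfl fun v _ => by rw [muN_comp, finrank_H0_muN]]
    simp
  rw [T3'] at T3
  -- local bound
  have hP : ∑ v, finrank k (LC.H0 (dtw (ρ.comp (r v)) (χ.comp (r v)))) + Fintype.card ι * n ≤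
      ∑ v, finrank k (LC.H0 (dtw ((extRep ρ χ c).comp (r v)) (χ.comp (r v)))) := by
    have : Fintype.card ι * n = ∑ _v : ι, n := by simp
    rw [this, ← Finset.sum_add_distrib]
    refine Finset.sum_le_sum fun v _ => ?_
    have h1 : ∀ i, ∃ θ : Dual k V, ∀ h : Γ v,
        (c i).1 (r v h) = dtw ρ χ (r v h) θ - θ := by
      intro i
      have := (mem_Sha1 L LΓ r hr (dtw ρ χ)).mp (hloc i) v
      rw [Mor.H1_mk, H1.mk_eq_zero_iff] at this
      exact this
    choose θ hθ using h1
    exact le_finrank_H0_ext_local ρ χ c (r v) θ hθ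
  have ht := finrank_H0_ext_le ρ χ c hind
  -- exactness
  have hq := LinearMap.finrank_range_add_finrank_ker s.mq.H2
  have hker : LinearMap.ker s.mq.H2 = LinearMap.range s.mi.H2 :=
    (LinearMap.exact_iff.mp s.exact_H2)
  have hi := LinearMap.finrank_range_add_finrank_ker s.mi.H2
  have hle1 : finrank k (LinearMap.range s.mq.H2) ≤ finrank k (LC.H2 ρ L) :=
    Submodule.finrank_le _
  -- Sha2
  have hsha : finrank k (Sha2 L LΓ r hr (muN χ n)) ≤
      finrank k (Sha2 L LΓ r hr (extRep ρ χ c)) + finrank k (LinearMap.ker s.mi.H2) := by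
    have hmap : (Sha2 L LΓ r hr (muN χ n)).map s.mi.H2 ≤ Sha2 L LΓ r hr (extRep ρ χ c) := by
      rintro _ ⟨x, hx, rfl⟩
      rw [mem_Sha2]
      intro v
      have hx' := (mem_Sha2 L LΓ r hr _).mp hx v
      have hcomm : (Mor.res (extRep ρ χ c) (r v) (hr v)).comp s.mi =
          ((s.res (r v) (hr v)).mi).comp (Mor.res (muN χ n) (r v) (hr v)) := by
        ext1 <;> rfl
      rw [← Mor.H2_comp, hcomm, Mor.H2_comp]
      erw [hx']
      rw [map_zero]
    have h1 := LinearMap.finrank_range_add_finrank_ker
      (s.mi.H2.domRestrict (Sha2 L LΓ r hr (muN χ n)))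
    have h2 : finrank k (LinearMap.range (s.mi.H2.domRestrict (Sha2 L LΓ r hr (muN χ n)))) ≤
        finrank k (Sha2 L LΓ r hr (extRep ρ χ c)) := by
      rw [LinearMap.range_domRestrict]
      exact Submodule.finrank_mono hmap
    have h3 : finrank k (LinearMap.ker (s.mi.H2.domRestrict (Sha2 L LΓ r hr (muN χ n)))) ≤
        finrank k (LinearMap.ker s.mi.H2) := by
      refine LinearMap.finrank_le_finrank_of_injective
        (f := ((Submodule.subtype _ ∘ₗ Submodule.subtype _).codRestrict _ fun x => ?_)) ?_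
      · exact x.2
      · intro a b h
        have := congrArg Subtype.val h
        exact Subtype.ext (Subtype.ext this)
    omega
  rw [hker] at hq
  omega

theorem sha1_finite_and_le (hT : TailFormula L χ LΓ r hr) (hF : FinH2 (k := k) L)
    (hχ : ContChar L χ)
    {V : Type} [AddCommGroup V] [Module k V] [FiniteDimensional k V]
    (ρ : Representation k G V) (hρ : Smooth L ρ) :
    FiniteDimensional k (Sha1 L LΓ r hr (dtw ρ χ)) ∧
      finrank k (Sha1 L LΓ r hr (dtw ρ χ)) ≤ finrank k (Sha2 L LΓ r hr ρ) := by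
  have key : ∀ (n : ℕ) (x : Fin n → Sha1 L LΓ r hr (dtw ρ χ)), LinearIndependent k x →
      n ≤ finrank k (Sha2 L LΓ r hr ρ) := by
    intro n x hx
    have h1 : ∀ i, ∃ c, H1.mk (dtw ρ χ) L c = (x i : LC.H1 (dtw ρ χ) L) := fun i =>
      H1.mk_surjective _
    choose c hc using h1
    refine ext_bound hT hF hχ ρ hρ c ?_ fun i => ?_
    · have : (fun i => H1.mk (dtw ρ χ) L (c i)) =
          (Submodule.subtype _) ∘ x := funext fun i => hc i
      rw [this]
      exact hx.map' _ (Submodule.ker_subtype _)
    · rw [hc]; exact (x i).2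
  have hfin : FiniteDimensional k (Sha1 L LΓ r hr (dtw ρ χ)) := by
    by_contra hinf
    have hrank : (↑(finrank k (Sha2 L LΓ r hr ρ) + 1) : Cardinal) ≤
        Module.rank k (Sha1 L LΓ r hr (dtw ρ χ)) := by
      have : Cardinal.aleph0 ≤ Module.rank k (Sha1 L LΓ r hr (dtw ρ χ)) := by
        rw [← not_lt, rank_lt_aleph0_iff]; exact hinf
      exact (Cardinal.natCast_lt_aleph0).le.trans this
    obtain ⟨x, hx⟩ := (le_rank_iff_exists_linearIndependent_finset).mp hrank
    obtain ⟨hcard, hli⟩ := hx
    let e := (Finset.equivFinOfCardEq hcard)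
    have := key _ (fun i => ((e.symm i : x) : Sha1 L LΓ r hr (dtw ρ χ)))
      (hli.comp e.symm e.symm.injective)
    omega
  refine ⟨hfin, ?_⟩
  exact key _ (Module.finBasis k _) (Module.finBasis k _).linearIndependent

end Count

end Fermat.Agent.CFT.PT
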