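import Fermat.Agent.CFT.PT.Inputs
import Fermat.Agent.CFT.LC.Tools

/-!
# Mackey form of the local Euler characteristic formula
-/

set_option autoImplicit false
set_option linter.unusedSectionVars false

namespace Fermat.Agent.CFT.PT

open Fermat.Agent.CFT.LC Module

namespace LocalEulerAux

variable {k : Type} [Field k] {G H : Type} [Group G] [Group H]
  {V : Type} [AddCommGroup V] [Module k V]

/-- A unipotent representation of `P` stays unipotent under a homomorphism `H → g P g⁻¹`. -/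
theorem unip_conj {ρ : Representation k G V} {P : Subgroup G} (hu : Unip (ρ.comp P.subtype))
    (f : H →* G) (g : G) (hf : ∀ h, g⁻¹ * f h * g ∈ P) : Unip (ρ.comp f) := by
  intro W hW hne
  have hcomp : ∀ a b (v : V), ρ a (ρ b v) = ρ (a * b) v := fun a b v => by
    rw [map_mul]; rfl
  have hone : ∀ v : V, ρ 1 v = v := fun v => by rw [map_one]; rfl
  let U : Submodule k V :=
    { carrier := {x | ∀ h ∈ P, ρ g (ρ h x) ∈ W}
      add_mem' := fun {a b} ha hb h hh => by
        rw [map_add, map_add]; exact W.add_mem (ha h hh) (hb h hh)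
      zero_mem' := fun h hh => by rw [map_zero, map_zero]; exact W.zero_mem
      smul_mem' := fun c x hx h hh => by
        rw [map_smul, map_smul]; exact W.smul_mem c (hx h hh) }
  obtain ⟨v, hv, hv'⟩ := hu U (by
    intro p w hw h hh
    have := hw (h * p) (P.mul_mem hh p.2)
    rwa [← hcomp] at this) (by
    intro hU
    apply hne
    rw [eq_top_iff]
    intro x _
    have h1 : ρ g⁻¹ x ∈ U := by rw [hU]; trivial
    have h2 := h1 1 P.one_mem
    rwa [hone, hcomp, mul_inv_cancel, hone] at h2)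
  refine ⟨ρ g v, fun hmem => hv ?_, fun h => ?_⟩
  · intro p hp
    have h1 := hv' ⟨p, hp⟩ 1 P.one_mem
    rw [hone] at h1
    have h2 := W.add_mem h1 hmem
    have h3 : ρ g ((ρ.comp P.subtype) ⟨p, hp⟩ v - v) + ρ g v = ρ g (ρ p v) := by
      rw [map_sub, sub_add_cancel]; rfl
    rwa [h3] at h2
  · have h1 := hv' ⟨_, hf h⟩ 1 P.one_mem
    rw [hone, map_sub] at h1
    have h2 : ρ g ((ρ.comp P.subtype) ⟨_, hf h⟩ v) = ρ (f h) (ρ g v) := by
      show ρ g (ρ (g⁻¹ * f h * g) v) = _
      rw [hcomp, hcomp]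
      congr 2
      group
    rw [h2] at h1
    exact h1

theorem card_fiber {X Ω : Type} [Finite X] {π : G →* Equiv.Perm X} (O : Orbits π Ω) (ω : Ω) :
    Nat.card {x : X // O.cl x = ω} = (stab π (O.rep ω)).index := by
  let _ : MulAction G {x : X // O.cl x = ω} := MulAction.compHom _ (O.perm ω)
  have htr : MulAction.IsPretransitive G {x : X // O.cl x = ω} := by
    refine ⟨fun x y => ?_⟩
    obtain ⟨g, hg⟩ := O.exists_perm x.1
    obtain ⟨h, hh⟩ := O.exists_perm y.1
    refine ⟨h * g⁻¹, ?_⟩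
    apply Subtype.ext
    show π (h * g⁻¹) x.1 = y.1
    rw [x.2] at hg
    rw [y.2] at hh
    rw [← hh, ← hg, map_mul, map_inv]
    simp
  have hst : stab π (O.rep ω) =
      MulAction.stabilizer G (⟨O.rep ω, O.cl_rep ω⟩ : {x : X // O.cl x = ω}) := by
    ext g
    rw [mem_stab, MulAction.mem_stabilizer_iff, Subtype.ext_iff]
    rfl
  rw [hst, MulAction.index_stabilizer_of_transitive]

theorem sum_index {X Ω : Type} [Finite X] {π : G →* Equiv.Perm X} (O : Orbits π Ω) [Fintype Ω] :
    ∑ ω, (stab π (O.rep ω)).index = Nat.card X := by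
  have h : Nat.card X = ∑ ω, Nat.card {x : X // O.cl x = ω} := by
    rw [← Nat.card_sigma]
    exact Nat.card_congr (Equiv.sigmaFiberEquiv O.cl).symm
  rw [h]
  exact Finset.sum_congr rfl fun ω _ => (card_fiber O ω).symm

end LocalEulerAux

open LocalEulerAux

/-- Mackey form of `LocalDuality.euler`. -/
theorem local_euler_fun {k : Type} [Field k] {Γ G : Type} [Group Γ] [Group G] {L : Lvl G}
    {LΓ : Lvl Γ} {r : Γ →* G} (hr : LΓ.Cont L r) {χ : G →* kˣ} {δ : ℕ}
    (D : LocalDuality LΓ (χ.comp r) δ) {P : Subgroup G} (hP : L.IsOpen P) (hPχ : P ≤ χ.ker)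
    {V : Type} [AddCommGroup V] [Module k V] [FiniteDimensional k V]
    (ρ : Representation k G V) (hρ : Smooth L ρ) (hu : Unip (ρ.comp P.subtype)) :
    finrank k (LC.H1 ((funRep (permQ P) ρ).comp r) LΓ) =
      finrank k (LC.H0 ((funRep (permQ P) ρ).comp r)) +
        finrank k (LC.H2 ((funRep (permQ P) ρ).comp r) LΓ) + δ * P.index * finrank k V := by
  have hfin : Finite (G ⧸ P) := finite_quot hP
  set π : Γ →* Equiv.Perm (G ⧸ P) := (permQ P).comp r with hπdef
  change finrank k (LC.H1 (funRep π (ρ.comp r)) LΓ) =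
    finrank k (LC.H0 (funRep π (ρ.comp r))) + finrank k (LC.H2 (funRep π (ρ.comp r)) LΓ) +
      δ * P.index * finrank k V
  have hπ : LΓ.IsOpen π.ker := by
    obtain ⟨N, hN, hle⟩ := isOpen_ker_quotPerm hP
    obtain ⟨N', hN', h'⟩ := hr N hN
    exact ⟨N', hN', fun x hx => hle (h' hx)⟩
  have hρr : Smooth LΓ (ρ.comp r) := hρ.comp hr
  have hfs : Smooth LΓ (funRep π (ρ.comp r)) := smooth_funRep hπ hρr
  obtain ⟨Ω, ⟨O⟩⟩ := Orbits.exists π
  have hsurj : Function.Surjective O.cl := fun ω => ⟨O.rep ω, O.cl_rep ω⟩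
  have hΩ : Finite Ω := Finite.of_surjective _ hsurj
  let _ : Fintype Ω := Fintype.ofFinite Ω
  -- finiteness
  have hf1 : FiniteDimensional k (LC.H1 (funRep π (ρ.comp r)) LΓ) := D.fin1 _ hfs
  have hf2 : FiniteDimensional k (LC.H2 (funRep π (ρ.comp r)) LΓ) := D.fin2 _ hfs
  have i1 : ∀ ω, Module.Finite k (LC.H1 ((ρ.comp r).comp (stab π (O.rep ω)).subtype)
      (LΓ.restrict (stab π (O.rep ω)))) := by
    intro ω
    refine Module.Finite.of_surjective ((LinearMap.proj ω).comp
      (O.mackey1 (ρ.comp r) hπ).toLinearMap) ?_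
    intro y
    classical
    obtain ⟨x, hx⟩ := (O.mackey1 (ρ.comp r) hπ).surjective (Function.update 0 ω y)
    refine ⟨x, ?_⟩
    rw [LinearMap.comp_apply, LinearEquiv.coe_coe, hx]
    simp
  have i2 : ∀ ω, Module.Finite k (LC.H2 ((ρ.comp r).comp (stab π (O.rep ω)).subtype)
      (LΓ.restrict (stab π (O.rep ω)))) := by
    intro ω
    refine Module.Finite.of_surjective ((LinearMap.proj ω).comp
      (O.mackey2 (ρ.comp r) hπ).toLinearMap) ?_
    intro y
    classical
    obtain ⟨x, hx⟩ := (O.mackey2 (ρ.comp r) hπ).surjective (Function.update 0 ω y)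
    refine ⟨x, ?_⟩
    rw [LinearMap.comp_apply, LinearEquiv.coe_coe, hx]
    simp
  rw [O.finrank_H1 (ρ.comp r) hπ, O.finrank_H2 (ρ.comp r) hπ, O.finrank_H0 (L := LΓ) (ρ.comp r)]
  have key : ∀ ω, finrank k (LC.H1 ((ρ.comp r).comp (stab π (O.rep ω)).subtype)
      (LΓ.restrict (stab π (O.rep ω)))) =
      finrank k (LC.H0 ((ρ.comp r).comp (stab π (O.rep ω)).subtype)) +
      finrank k (LC.H2 ((ρ.comp r).comp (stab π (O.rep ω)).subtype)
        (LΓ.restrict (stab π (O.rep ω)))) + δ * (stab π (O.rep ω)).index * finrank k V := by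
    intro ω
    obtain ⟨g, hg⟩ := QuotientGroup.mk_surjective (O.rep ω)
    have hmem : ∀ s : stab π (O.rep ω), g⁻¹ * r s * g ∈ P := by
      rintro ⟨s, hs⟩
      have h1 : π s (O.rep ω) = O.rep ω := mem_stab.1 hs
      rw [← hg] at h1
      have h2 : ((r s * g : G) : G ⧸ P) = (g : G ⧸ P) := h1
      rw [eq_comm, QuotientGroup.eq] at h2
      rwa [← mul_assoc] at h2
    refine D.euler _ (hπ.mono (ker_le_stab π _)) ?_ _ ?_ ?_
    · intro s hs
      rw [MonoidHom.mem_ker]
      have h1 := hPχ (hmem ⟨s, hs⟩)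
      rw [MonoidHom.mem_ker] at h1
      simp only [map_mul, map_inv] at h1
      show χ (r s) = 1
      have h2 : (χ g)⁻¹ * χ (r s) * χ g = χ (r s) := by
        rw [mul_comm, ← mul_assoc, mul_inv_cancel, one_mul]
      rwa [h2] at h1
    · exact hρr.comp (Lvl.cont_comap LΓ _)
    · exact unip_conj hu (r.comp (stab π (O.rep ω)).subtype) g hmem
  rw [Finset.sum_congr rfl fun ω _ => key ω, Finset.sum_add_distrib, Finset.sum_add_distrib,
    ← Finset.sum_mul, ← Finset.mul_sum, sum_index O]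
  rfl

end Fermat.Agent.CFT.PT
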