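import Fermat.Agent.CFT.PT.Final
import Fermat.Agent.CFT.PT.Euler
import Fermat.Agent.CFT.PT.LocalEuler

/-!
# Abstract Poitou–Tate: main theorem

* `finite_of_HG3` : `H¹`, `H²` are finite-dimensional for all smooth finite-dimensional modules;
* `poitouTate` : `dim Ш²(V) = dim Ш¹(V')`.
-/

set_option autoImplicit false
set_option linter.unusedSectionVars false

namespace Fermat.Agent.CFT.PT

open Fermat.Agent.CFT.LC Module

variable {k : Type} [Field k] {G : Type} [Group G] {L : Lvl G} {χ : G →* kˣ}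
  {ι : Type} [Fintype ι] {Γ : ι → Type} [∀ v, Group (Γ v)] {LΓ : ∀ v, Lvl (Γ v)}
  {r : ∀ v, Γ v →* G} {hr : ∀ v, (LΓ v).Cont L (r v)} {δ : ι → ℕ}
  (D : ∀ v, LocalDuality (LΓ v) (χ.comp (r v)) (δ v))
  {p : ℕ} [Fact p.Prime] [CharP k p] [Finite k]

theorem eulerFun_of_HG3 (h3 : HG3 L χ) : EulerFun (k := k) L χ :=
  fun hP hPχ _ _ _ _ ρ hρ hu => euler_fun h3 hP hPχ ρ hρ hu

theorem finUnip_of_HG3 (h3 : HG3 L χ) : FinUnip (k := k) L χ :=
  fun hP hPχ hidx _ _ _ _ ρ hρ hu => fin_of_unip h3 hP hPχ hidx ρ hρ hu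

include p in
/-- Finiteness of the cohomology of all smooth finite-dimensional modules. -/
theorem finite_of_HG3 (hχ : ContChar L χ) (h3 : HG3 L χ)
    {V : Type} [AddCommGroup V] [Module k V] [FiniteDimensional k V]
    (ρ : Representation k G V) (hρ : Smooth L ρ) :
    FiniteDimensional k (LC.H1 ρ L) ∧ FiniteDimensional k (LC.H2 ρ L) := by
  obtain ⟨N, hN, hNχ, htriv⟩ := exists_level_trivial_le hρ (U := χ.ker) (by
    obtain ⟨N, hN, h⟩ := hχ; exact ⟨N, hN, h⟩)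
  obtain ⟨P, hP, hPχ, hidx, hpow⟩ := exists_sylow (k := k) (p := p) hN hNχ
  refine fin_of_unip h3 hP hPχ hidx ρ hρ ?_
  refine unip_of_pow (p := p) _ fun g => ?_
  obtain ⟨m, hm⟩ := hpow g g.2
  exact ⟨m, htriv _ hm⟩

include p in
theorem finH2_of_HG3 (hχ : ContChar L χ) (h3 : HG3 L χ) : FinH2 (k := k) L :=
  fun ρ hρ => (finite_of_HG3 (p := p) hχ h3 ρ hρ).2

include D in
theorem localEulerFun_of_D (hr : ∀ v, (LΓ v).Cont L (r v)) : LocalEulerFun L χ LΓ r δ :=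
  fun v _ hP hPχ _ _ _ _ ρ hρ hu => local_euler_fun (hr v) (D v) hP hPχ ρ hρ hu

include D p in
/-- **Numerical Poitou–Tate duality** -/
theorem poitouTate [Nonempty ι] (hδ : ∑ v, δ v = 1)
    (hRec : HRec L χ LΓ r hr fun v => (D v).inv) (hG2 : HG2 L χ LΓ r hr) (h3 : HG3 L χ)
    (hχ : ContChar L χ)
    {V : Type} [AddCommGroup V] [Module k V] [FiniteDimensional k V]
    (ρ : Representation k G V) (hρ : Smooth L ρ) :
    FiniteDimensional k (Sha2 L LΓ r hr ρ) ∧ FiniteDimensional k (Sha1 L LΓ r hr (dtw ρ χ)) ∧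
    finrank k (Sha2 L LΓ r hr ρ) = finrank k (Sha1 L LΓ r hr (dtw ρ χ)) :=
  poitouTate_aux (p := p) D hδ hRec hG2 (eulerFun_of_HG3 h3) (finUnip_of_HG3 h3)
    (localEulerFun_of_D D hr) hχ ρ hρ

end Fermat.Agent.CFT.PT
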