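import Fermat.Agent.CFT.PT.Defs

/-!
# Abstract Poitou–Tate: localisation, `Sha`, the extension argument and orthogonality
-/

set_option autoImplicit false
set_option linter.unusedSectionVars false

namespace Fermat.Agent.CFT.PT

open Fermat.Agent.CFT.LC Module

section Loc

variable {k : Type} [Field k] {G : Type} [Group G] (L : Lvl G)
  {ι : Type} [Fintype ι] {Γ : ι → Type} [∀ v, Group (Γ v)] (LΓ : ∀ v, Lvl (Γ v))
  (r : ∀ v, Γ v →* G) (hr : ∀ v, (LΓ v).Cont L (r v))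
  {V : Type} [AddCommGroup V] [Module k V] (ρ : Representation k G V)

/-- localisation on `H¹` -/
noncomputable def loc1 : LC.H1 ρ L →ₗ[k] ∀ v, LC.H1 (ρ.comp (r v)) (LΓ v) :=
  LinearMap.pi fun v => (Mor.res ρ (r v) (hr v)).H1

/-- localisation on `H²` -/
noncomputable def loc2 : LC.H2 ρ L →ₗ[k] ∀ v, LC.H2 (ρ.comp (r v)) (LΓ v) :=
  LinearMap.pi fun v => (Mor.res ρ (r v) (hr v)).H2

@[simp] theorem loc1_apply (x : LC.H1 ρ L) (v : ι) :
    loc1 L LΓ r hr ρ x v = (Mor.res ρ (r v) (hr v)).H1 x := rfl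

@[simp] theorem loc2_apply (x : LC.H2 ρ L) (v : ι) :
    loc2 L LΓ r hr ρ x v = (Mor.res ρ (r v) (hr v)).H2 x := rfl

/-- `Ш¹` -/
noncomputable def Sha1 : Submodule k (LC.H1 ρ L) := LinearMap.ker (loc1 L LΓ r hr ρ)

/-- `Ш²` -/
noncomputable def Sha2 : Submodule k (LC.H2 ρ L) := LinearMap.ker (loc2 L LΓ r hr ρ)

theorem mem_Sha1 {x : LC.H1 ρ L} :
    x ∈ Sha1 L LΓ r hr ρ ↔ ∀ v, (Mor.res ρ (r v) (hr v)).H1 x = 0 := by
  rw [Sha1, LinearMap.mem_ker, funext_iff]; rfl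

theorem mem_Sha2 {x : LC.H2 ρ L} :
    x ∈ Sha2 L LΓ r hr ρ ↔ ∀ v, (Mor.res ρ (r v) (hr v)).H2 x = 0 := by
  rw [Sha2, LinearMap.mem_ker, funext_iff]; rfl

end Loc

section Mors

variable {k : Type} [Field k] {G H : Type} [Group G] [Group H] {L : Lvl G} {LH : Lvl H}
  {V : Type} [AddCommGroup V] [Module k V] (ρ : Representation k G V) (χ : G →* kˣ)
  (f : H →* G) (hf : LH.Cont L f)

/-- restriction for `μ` -/
noncomputable def resMu : Mor (mu χ) L (mu (χ.comp f)) LH where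
  f := f
  φ := LinearMap.id
  cont := hf
  comm h x := by simp

/-- restriction for the twisted dual -/
noncomputable def resDtw : Mor (dtw ρ χ) L (dtw (ρ.comp f) (χ.comp f)) LH where
  f := f
  φ := LinearMap.id
  cont := hf
  comm h x := by
    have := congrArg (fun σ : Representation k H (Dual k V) => σ h x) (dtw_comp ρ χ f)
    exact this

theorem resDtw_H0_coe (x : LC.H0 (dtw ρ χ)) :
    ((resDtw ρ χ f hf).H0 x : Dual k V) = x := rfl

/-- compatibility of restriction with cup products in degree (1,1) -/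
theorem cup11_res (hs : Smooth L (dtw ρ χ)) (hs' : Smooth LH (dtw (ρ.comp f) (χ.comp f)))
    (x : LC.H1 ρ L) (y : LC.H1 (dtw ρ χ) L) :
    cup11 (evp_isPairing (ρ.comp f) (χ.comp f)) hs' ((Mor.res ρ f hf).H1 x)
      ((resDtw ρ χ f hf).H1 y) =
    (resMu χ f hf).H2 (cup11 (evp_isPairing ρ χ) hs x y) := by
  obtain ⟨a, rfl⟩ := H1.mk_surjective x
  obtain ⟨b, rfl⟩ := H1.mk_surjective y
  rw [Mor.H1_mk, Mor.H1_mk, cup11_mk, cup11_mk, Mor.H2_mk]
  congr 1
  refine Subtype.ext (funext fun p => ?_)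
  rw [cupZ11_apply_coe, Mor.coe_z2, Mor.c2_apply, cupZ11_apply_coe, cupC11_apply, cupC11_apply]
  have := congrArg (fun σ : Representation k H (Dual k V) => σ p.1 (b.1 (f p.2)))
    (dtw_comp ρ χ f)
  simp only [MonoidHom.comp_apply] at this
  simp only [Mor.coe_z1, Mor.c1_apply, Mor.res_f, Mor.res_φ, LinearMap.id_apply]
  show evp k V (a.1 (f p.1)) (dtw (ρ.comp f) (χ.comp f) p.1 (b.1 (f p.2))) = _
  rw [← this]
  rfl

/-- compatibility of restriction with cup products in degree (2,0) -/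
theorem cup20_res (x : LC.H2 ρ L) (y : LC.H0 (dtw ρ χ)) :
    cup20 (evp_isPairing (ρ.comp f) (χ.comp f)) LH ((Mor.res ρ f hf).H2 x)
      ((resDtw ρ χ f hf).H0 y) =
    (resMu χ f hf).H2 (cup20 (evp_isPairing ρ χ) L x y) := by
  obtain ⟨a, rfl⟩ := H2.mk_surjective x
  rw [Mor.H2_mk, cup20_mk, cup20_mk, Mor.H2_mk]
  congr 1

end Mors

section MorCup

variable {k : Type} [Field k] {G : Type} [Group G] {L : Lvl G}
  {V W : Type} [AddCommGroup V] [Module k V] [AddCommGroup W] [Module k W]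
  {ρ : Representation k G V} {σ : Representation k G W} (χ : G →* kˣ)

/-- an invariant functional defines a morphism to `μ`. -/
noncomputable def toMu (y : LC.H0 (dtw ρ χ)) : Mor ρ L (mu χ) L :=
  Mor.coeff L (y : Dual k V) fun g v => by
    have h := (mem_H0 _).mp y.2 g
    have h1 : dtw ρ χ g y.1 (ρ g v) = y.1 (ρ g v) := by rw [h]
    rw [← h1, dtw_apply_apply, mu_apply, ← Module.End.mul_apply, ← map_mul, inv_mul_cancel,
      map_one, Module.End.one_apply]

theorem cup20_eq_toMu (x : LC.H2 ρ L) (y : LC.H0 (dtw ρ χ)) :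
    cup20 (evp_isPairing ρ χ) L x y = (toMu χ y).H2 x := by
  obtain ⟨a, rfl⟩ := H2.mk_surjective x
  rw [cup20_mk, Mor.H2_mk]
  congr 1

/-- pull back of an invariant functional along an equivariant map -/
noncomputable def pullH0 (φ : V →ₗ[k] W) (hφ : ∀ g v, φ (ρ g v) = σ g (φ v)) :
    LC.H0 (dtw σ χ) →ₗ[k] LC.H0 (dtw ρ χ) :=
  (Module.Dual.transpose φ).restrict fun y hy => by
    rw [mem_H0] at hy ⊢
    intro g
    refine LinearMap.ext fun v => ?_
    have h := congrArg (fun z : Dual k W => z (φ v)) (hy g)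
    simp only [dtw_apply_apply] at h
    rw [dtw_apply_apply, Module.Dual.transpose_apply, LinearMap.comp_apply, LinearMap.comp_apply,
      hφ, h]

@[simp] theorem pullH0_coe (φ : V →ₗ[k] W) (hφ : ∀ g v, φ (ρ g v) = σ g (φ v))
    (y : LC.H0 (dtw σ χ)) (v : V) : (pullH0 χ φ hφ y : Dual k V) v = (y : Dual k W) (φ v) := rfl

theorem pair20_pull (inv : LC.H2 (mu χ) L →ₗ[k] k) (φ : V →ₗ[k] W)
    (hφ : ∀ g v, φ (ρ g v) = σ g (φ v)) (x : LC.H2 ρ L) (y : LC.H0 (dtw σ χ)) :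
    pair20 χ inv σ ((Mor.coeff L φ hφ).H2 x) y = pair20 χ inv ρ x (pullH0 χ φ hφ y) := by
  simp only [pair20, LinearMap.compr₂_apply]
  rw [cup20_eq_toMu, cup20_eq_toMu, ← Mor.H2_comp]
  congr 1

end MorCup

end Fermat.Agent.CFT.PT
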