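import Fermat.Agent.CFT.PT.Tail

/-!
# Abstract Poitou–Tate: orthogonality in degree one
-/

set_option autoImplicit false
set_option linter.unusedSectionVars false

namespace Fermat.Agent.CFT.PT

open Fermat.Agent.CFT.LC Module

section Lin

variable {k : Type} [Field k]

/-- orthogonal subspaces -/
theorem finrank_add_le_of_orth {A B : Type} [AddCommMonoid A] [Module k A] [AddCommMonoid B]
    [Module k B] [Module.Finite k A] (b : A →ₗ[k] B →ₗ[k] k)
    (hb : Function.Injective b.flip) (W : Submodule k A) (K : Submodule k B)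
    (hK : ∀ y ∈ K, ∀ x ∈ W, b x y = 0) : finrank k K + finrank k W ≤ finrank k A := by
  let := Module.addCommMonoidToAddCommGroup k (M := A)
  let := Module.addCommMonoidToAddCommGroup k (M := B)
  let f : K →ₗ[k] W.dualAnnihilator :=
    (b.flip ∘ₗ K.subtype).codRestrict W.dualAnnihilator fun y => by
      rw [Submodule.mem_dualAnnihilator]
      intro x hx
      exact hK y y.2 x hx
  have hf : Function.Injective f := by
    intro y y' h
    exact Subtype.ext (hb (congrArg Subtype.val h))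
  have h1 := LinearMap.finrank_le_finrank_of_injective hf
  have h2 := Subspace.finrank_add_finrank_dualAnnihilator_eq W
  omega

theorem glue_flip_injective {ι : Type} [Fintype ι] {A B : ι → Type}
    [∀ v, AddCommMonoid (A v)] [∀ v, Module k (A v)] [∀ v, AddCommMonoid (B v)]
    [∀ v, Module k (B v)] (b : ∀ v, A v →ₗ[k] B v →ₗ[k] k)
    (hb : ∀ v, Function.Injective (b v).flip) : Function.Injective (glue b).flip := by
  classical
  intro y y' hy
  funext v
  apply hb v
  refine LinearMap.ext fun a => ?_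
  have := LinearMap.congr_fun hy (Pi.single v a)
  rwa [LinearMap.flip_apply, LinearMap.flip_apply, glue_single, glue_single] at this

/-- Counting: orthogonality of the images of two global spaces. -/
theorem orth_count {ι : Type} [Fintype ι] {X Y : Type} {A B : ι → Type}
    [AddCommGroup X] [Module k X] [AddCommGroup Y] [Module k Y]
    [FiniteDimensional k X] [FiniteDimensional k Y]
    [∀ v, AddCommMonoid (A v)] [∀ v, Module k (A v)] [∀ v, AddCommMonoid (B v)]
    [∀ v, Module k (B v)] [∀ v, Module.Finite k (A v)] (b : ∀ v, A v →ₗ[k] B v →ₗ[k] k)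
    (hb : ∀ v, Function.Injective (b v).flip)
    (f : ∀ v, X →ₗ[k] A v) (g : ∀ v, Y →ₗ[k] B v)
    (horth : ∀ x y, ∑ v, b v (f v x) (g v y) = 0)
    (SX : Submodule k X) (hSX : ∀ x, x ∈ SX ↔ ∀ v, f v x = 0)
    (SY : Submodule k Y) (hSY : ∀ y, y ∈ SY ↔ ∀ v, g v y = 0) :
    finrank k X + finrank k Y ≤ finrank k SX + finrank k SY + ∑ v, finrank k (A v) := by
  have hkX : LinearMap.ker (LinearMap.pi f) = SX := by
    ext x
    rw [LinearMap.mem_ker, hSX, funext_iff]
    rfl
  have hkY : LinearMap.ker (LinearMap.pi g) = SY := by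
    ext x
    rw [LinearMap.mem_ker, hSY, funext_iff]
    rfl
  have h1 := finrank_add_le_of_orth (glue b) (glue_flip_injective b hb)
    (LinearMap.range (LinearMap.pi f)) (LinearMap.range (LinearMap.pi g)) (by
      rintro _ ⟨y, rfl⟩ _ ⟨x, rfl⟩
      rw [glue_apply]
      exact horth x y)
  have h2 := finrank_range_ker (LinearMap.pi f)
  have h3 := finrank_range_ker (LinearMap.pi g)
  have h4 : finrank k (∀ v, A v) = ∑ v, finrank k (A v) := finrank_pi_monoid _
  rw [hkX] at h2
  rw [hkY] at h3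
  rw [h4] at h1
  omega

end Lin

section Res

variable {k : Type} [Field k] {G H : Type} [Group G] [Group H] {L : Lvl G} {LH : Lvl H}
  {V : Type} [AddCommGroup V] [Module k V] (ρ : Representation k G V) (χ : G →* kˣ)
  (f : H →* G) (hf : LH.Cont L f)

theorem resDtw_H1_eq_zero_iff (x : LC.H1 (dtw ρ χ) L) :
    (resDtw ρ χ f hf).H1 x = 0 ↔ (Mor.res (dtw ρ χ) f hf).H1 x = 0 := by
  obtain ⟨a, rfl⟩ := H1.mk_surjective x
  rw [Mor.H1_mk, Mor.H1_mk, H1.mk_eq_zero_iff, H1.mk_eq_zero_iff]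
  have h : ∀ (g : H) (v : Dual k V), dtw (ρ.comp f) (χ.comp f) g v = ((dtw ρ χ).comp f) g v :=
    fun g v => by rw [dtw_comp]
  constructor
  · rintro ⟨v, hv⟩
    refine ⟨v, fun g => ?_⟩
    rw [← h]
    exact hv g
  · rintro ⟨v, hv⟩
    refine ⟨v, fun g => ?_⟩
    rw [h]
    exact hv g

end Res

section Orth

variable {k : Type} [Field k] {G : Type} [Group G] {L : Lvl G} {χ : G →* kˣ}
  {ι : Type} [Fintype ι] {Γ : ι → Type} [∀ v, Group (Γ v)] {LΓ : ∀ v, Lvl (Γ v)}
  {r : ∀ v, Γ v →* G} {hr : ∀ v, (LΓ v).Cont L (r v)} {δ : ι → ℕ}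
  (D : ∀ v, LocalDuality (LΓ v) (χ.comp (r v)) (δ v))

theorem finrank_H1_add_le (hRec : HRec L χ LΓ r hr fun v => (D v).inv) (hχ : ContChar L χ)
    {V : Type} [AddCommGroup V] [Module k V] [FiniteDimensional k V] (ρ : Representation k G V)
    (hρ : Smooth L ρ) [FiniteDimensional k (LC.H1 ρ L)] [FiniteDimensional k (LC.H1 (dtw ρ χ) L)] :
    finrank k (LC.H1 ρ L) + finrank k (LC.H1 (dtw ρ χ) L) ≤
      finrank k (Sha1 L LΓ r hr ρ) + finrank k (Sha1 L LΓ r hr (dtw ρ χ)) +
        ∑ v, finrank k (LC.H1 (ρ.comp (r v)) (LΓ v)) := by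
  have hs : Smooth L (dtw ρ χ) := smooth_dtw hρ hχ
  have hs' : ∀ v, Smooth (LΓ v) (dtw (ρ.comp (r v)) (χ.comp (r v))) := fun v =>
    smooth_dtw (hρ.comp (hr v)) (hχ.comp (hr v))
  have hfin : ∀ v, FiniteDimensional k (LC.H1 (ρ.comp (r v)) (LΓ v)) := fun v =>
    (D v).fin1 _ (hρ.comp (hr v))
  refine @orth_count k _ ι _ (LC.H1 ρ L) (LC.H1 (dtw ρ χ) L)
    (fun v => LC.H1 (ρ.comp (r v)) (LΓ v))
    (fun v => LC.H1 (dtw (ρ.comp (r v)) (χ.comp (r v))) (LΓ v)) _ _ _ _ _ _
    (fun v => inferInstance) (fun v => inferInstance) (fun v => inferInstance)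
    (fun v => inferInstance) hfin
    (fun v => pair11 (χ.comp (r v)) (D v).inv (ρ.comp (r v)) (hs' v)) ?_
    (fun v => (Mor.res ρ (r v) (hr v)).H1) (fun v => (resDtw ρ χ (r v) (hr v)).H1) ?_
    (Sha1 L LΓ r hr ρ) (fun x => mem_Sha1 L LΓ r hr ρ)
    (Sha1 L LΓ r hr (dtw ρ χ)) (fun y => ?_)
  · intro v
    rw [injective_iff_map_eq_zero]
    intro y hy
    refine (D v).right _ (hρ.comp (hr v)) (hs' v) y fun x => ?_
    exact LinearMap.congr_fun hy x
  · intro x y
    have h := hRec (cup11 (evp_isPairing ρ χ) hs x y)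
    rw [← h]
    refine Finset.sum_congr rfl fun v _ => ?_
    rw [← cup11_res ρ χ (r v) (hr v) hs (hs' v)]
    rfl
  · rw [mem_Sha1]
    exact forall_congr' fun v => (resDtw_H1_eq_zero_iff ρ χ (r v) (hr v) y).symm

end Orth

end Fermat.Agent.CFT.PT
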