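import Fermat.Agent.CFT.PT.Defs

/-!
# Abstract Poitou–Tate: open subgroups of index prime to `p` acting unipotently
-/

set_option autoImplicit false
set_option linter.unusedSectionVars false

namespace Fermat.Agent.CFT.PT

open Fermat.Agent.CFT.LC Module

variable {k : Type} [Field k] [Finite k] {p : ℕ} [Fact p.Prime] [CharP k p]
  {G : Type} [Group G]

/-- the permutation action on the quotient by an invariant subspace -/
noncomputable def quotPermRep {V : Type} [AddCommGroup V] [Module k V]
    (ρ : Representation k G V) (W : Submodule k V) (hW : ∀ g, ∀ w ∈ W, ρ g w ∈ W) :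
    G →* Equiv.Perm (V ⧸ W) :=
  MonoidHom.toHomPerm
    { toFun := fun g => (W.mapQ W (ρ g) (hW g) : V ⧸ W → V ⧸ W)
      map_one' := by
        funext x
        induction x using Submodule.Quotient.induction_on with
        | H v => show W.mapQ W (ρ 1) (hW 1) (Submodule.Quotient.mk v) = _
                 rw [Submodule.mapQ_apply, map_one]; rfl
      map_mul' := fun g h => by
        funext x
        induction x using Submodule.Quotient.induction_on with
        | H v => show W.mapQ W (ρ (g * h)) (hW _) (Submodule.Quotient.mk v) = _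
                 rw [Submodule.mapQ_apply, map_mul]; rfl }

theorem quotPermRep_mk {V : Type} [AddCommGroup V] [Module k V]
    (ρ : Representation k G V) (W : Submodule k V) (hW : ∀ g, ∀ w ∈ W, ρ g w ∈ W) (g : G) (v : V) :
    quotPermRep ρ W hW g (Submodule.Quotient.mk v) = Submodule.Quotient.mk (ρ g v) := rfl

include p in
/-- A group whose elements have `p`-power powers acting trivially acts unipotently. -/
theorem unip_of_pow {V : Type} [AddCommGroup V] [Module k V] [FiniteDimensional k V]
    (ρ : Representation k G V) (h : ∀ g, ∃ m : ℕ, ρ (g ^ p ^ m) = 1) : Unip ρ := by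
  intro W hW hWt
  have hp : p.Prime := Fact.out
  let φ := quotPermRep ρ W hW
  have hG : IsPGroup p φ.range := by
    rintro ⟨_, g, rfl⟩
    obtain ⟨m, hm⟩ := h g
    refine ⟨m, Subtype.ext ?_⟩
    show φ g ^ p ^ m = 1
    rw [← map_pow]
    ext x
    induction x using Submodule.Quotient.induction_on with
    | H v =>
      show quotPermRep ρ W hW _ (Submodule.Quotient.mk v) = _
      rw [quotPermRep_mk, hm]; rfl
  have hfin : Finite (V ⧸ W) := Module.finite_of_finite k
  have hnt : Nontrivial (V ⧸ W) := Submodule.Quotient.nontrivial_iff.mpr hWt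
  have hdvd : p ∣ Nat.card (V ⧸ W) := by
    obtain ⟨x, hx⟩ := exists_ne (0 : V ⧸ W)
    have h1 : addOrderOf x = p := by
      refine addOrderOf_eq_prime ?_ hx
      rw [← Nat.cast_smul_eq_nsmul k, CharP.cast_eq_zero, zero_smul]
    rw [← h1]
    exact addOrderOf_dvd_natCard x
  have h0 : (0 : V ⧸ W) ∈ MulAction.fixedPoints φ.range (V ⧸ W) := by
    rintro ⟨_, g, rfl⟩
    show quotPermRep ρ W hW g (Submodule.Quotient.mk 0) = 0
    rw [quotPermRep_mk, map_zero]; rfl
  obtain ⟨b, hb, hb0⟩ := hG.exists_fixed_point_of_prime_dvd_card_of_fixed_point _ hdvd h0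
  obtain ⟨v, rfl⟩ := Submodule.Quotient.mk_surjective W b
  refine ⟨v, fun hv => hb0 ?_, fun g => ?_⟩
  · rw [(Submodule.Quotient.mk_eq_zero W).mpr hv]
  · have h1 : quotPermRep ρ W hW g (Submodule.Quotient.mk v) = Submodule.Quotient.mk v :=
      hb ⟨φ g, g, rfl⟩
    rw [quotPermRep_mk] at h1
    exact (Submodule.Quotient.eq W).mp h1

/-- Existence of an open subgroup of index prime to `p`, in which a given level is of
`p`-power index. -/
theorem exists_sylow {L : Lvl G} {χ : G →* kˣ} {N : Subgroup G} (hN : N ∈ L.levels)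
    (hNχ : N ≤ χ.ker) :
    ∃ P : Subgroup G, L.IsOpen P ∧ P ≤ χ.ker ∧ (P.index : k) ≠ 0 ∧
      ∀ g ∈ P, ∃ m : ℕ, g ^ p ^ m ∈ N := by
  have hp : p.Prime := Fact.out
  have := L.finiteIndex N hN
  have := L.normal N hN
  have hfin : Finite (G ⧸ N) := Subgroup.finite_quotient_of_finiteIndex
  let Q : Sylow p (G ⧸ N) := default
  have hpow : ∀ g ∈ (Q : Subgroup (G ⧸ N)).comap (QuotientGroup.mk' N), ∃ m : ℕ, g ^ p ^ m ∈ N := by
    intro g hg
    obtain ⟨m, hm⟩ := Q.isPGroup' ⟨QuotientGroup.mk' N g, hg⟩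
    refine ⟨m, ?_⟩
    have h1 := congrArg Subtype.val hm
    have h2 : QuotientGroup.mk' N (g ^ p ^ m) = 1 := by
      rw [map_pow]; exact h1
    rwa [← MonoidHom.mem_ker, QuotientGroup.ker_mk'] at h2
  refine ⟨(Q : Subgroup (G ⧸ N)).comap (QuotientGroup.mk' N), ?_, ?_, ?_, hpow⟩
  · refine ⟨N, hN, fun g hg => ?_⟩
    have : QuotientGroup.mk' N g = 1 := (QuotientGroup.eq_one_iff g).mpr hg
    rw [Subgroup.mem_comap, this]
    exact Subgroup.one_mem _
  · intro g hg
    obtain ⟨m, hm⟩ := hpow g hg
    have h1 : χ (g ^ p ^ m) = 1 := hNχ hm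
    rw [map_pow] at h1
    rw [MonoidHom.mem_ker]
    have h2 : ((χ g : kˣ) : k) ^ p ^ m = 1 := by
      rw [← Units.val_pow_eq_pow_val, h1, Units.val_one]
    have h3 : ((χ g : kˣ) : k) = 1 := by
      have := (ExpChar.pow_prime_pow_mul_eq_one_iff p m 1 ((χ g : kˣ) : k)).mp (by simpa using h2)
      simpa using this
    exact Units.ext h3
  · rw [Subgroup.index_comap_of_surjective _ (QuotientGroup.mk'_surjective N)]
    intro h
    rw [CharP.cast_eq_zero_iff k p] at h
    exact Q.not_dvd_index h

end Fermat.Agent.CFT.PT
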