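import Fermat.Agent.CFT.PT.Split
import Fermat.Agent.CFT.PT.Sylow
import Fermat.Agent.CFT.PT.Orth

/-!
# Abstract Poitou–Tate: the numerical theorem
-/

set_option autoImplicit false
set_option linter.unusedSectionVars false

namespace Fermat.Agent.CFT.PT

open Fermat.Agent.CFT.LC Module

variable {k : Type} [Field k] {G : Type} [Group G] {L : Lvl G} {χ : G →* kˣ}
  {ι : Type} [Fintype ι] {Γ : ι → Type} [∀ v, Group (Γ v)] {LΓ : ∀ v, Lvl (Γ v)}
  {r : ∀ v, Γ v →* G} {hr : ∀ v, (LΓ v).Cont L (r v)} {δ : ι → ℕ}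

/-- The Euler characteristic inequality for induced modules. -/
def EulerFun (L : Lvl G) (χ : G →* kˣ) : Prop :=
  ∀ {P : Subgroup G}, L.IsOpen P → P ≤ χ.ker → ∀ {V : Type} [AddCommGroup V] [Module k V]
    [FiniteDimensional k V] (ρ : Representation k G V), Smooth L ρ → Unip (ρ.comp P.subtype) →
    FiniteDimensional k (LC.H1 (funRep (permQ P) ρ) L) ∧
    FiniteDimensional k (LC.H2 (funRep (permQ P) ρ) L) ∧
    2 * (finrank k (LC.H0 (funRep (permQ P) ρ)) + finrank k (LC.H2 (funRep (permQ P) ρ) L)) +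
      P.index * finrank k V ≤ 2 * finrank k (LC.H1 (funRep (permQ P) ρ) L)

/-- Finiteness for modules which are unipotent on an open subgroup of prime-to-`p` index. -/
def FinUnip (L : Lvl G) (χ : G →* kˣ) : Prop :=
  ∀ {P : Subgroup G}, L.IsOpen P → P ≤ χ.ker → (P.index : k) ≠ 0 →
    ∀ {V : Type} [AddCommGroup V] [Module k V]
    [FiniteDimensional k V] (ρ : Representation k G V), Smooth L ρ → Unip (ρ.comp P.subtype) →
    FiniteDimensional k (LC.H1 ρ L) ∧ FiniteDimensional k (LC.H2 ρ L)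

/-- The local Euler characteristic of induced modules. -/
def LocalEulerFun (L : Lvl G) (χ : G →* kˣ) (LΓ : ∀ v, Lvl (Γ v)) (r : ∀ v, Γ v →* G)
    (δ : ι → ℕ) : Prop :=
  ∀ (v : ι) {P : Subgroup G}, L.IsOpen P → P ≤ χ.ker → ∀ {V : Type} [AddCommGroup V] [Module k V]
    [FiniteDimensional k V] (ρ : Representation k G V), Smooth L ρ → Unip (ρ.comp P.subtype) →
    finrank k (LC.H1 ((funRep (permQ P) ρ).comp (r v)) (LΓ v)) =
      finrank k (LC.H0 ((funRep (permQ P) ρ).comp (r v))) +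
      finrank k (LC.H2 ((funRep (permQ P) ρ).comp (r v)) (LΓ v)) + δ v * P.index * finrank k V

section

variable (D : ∀ v, LocalDuality (LΓ v) (χ.comp (r v)) (δ v))

/-- the arithmetic of the final argument -/
theorem numeric {s2 s2' s1 s1' h0 h0' h1 h1' h2 h2' P0 P0' P1 P2 d : ℕ}
    (t : s2 + P0' = h2 + h0') (t' : s2' + P0 = h2' + h0)
    (o : h1 + h1' ≤ s1 + s1' + P1) (e : 2 * (h0 + h2) + d ≤ 2 * h1)
    (e' : 2 * (h0' + h2') + d ≤ 2 * h1') (l : P1 = P0 + P2 + d) (b : P2 = P0')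
    (c : s1' ≤ s2) (c' : s1 ≤ s2') : s2 = s1' ∧ s2' = s1 := by
  omega

variable (hRec : HRec L χ LΓ r hr fun v => (D v).inv) (hG2 : HG2 L χ LΓ r hr)
  (hF : FinH2 (k := k) L) (hχ : ContChar L χ)

include D in
theorem finrank_H2_local {V : Type} [AddCommGroup V] [Module k V] [FiniteDimensional k V]
    (ρ : Representation k G V) (hρ : Smooth L ρ) (hr : ∀ v, (LΓ v).Cont L (r v)) (v : ι) :
    finrank k (LC.H2 (ρ.comp (r v)) (LΓ v)) =
      finrank k (LC.H0 (dtw (ρ.comp (r v)) (χ.comp (r v)))) := by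
  have : FiniteDimensional k (LC.H2 (ρ.comp (r v)) (LΓ v)) := (D v).fin2 _ (hρ.comp (hr v))
  have h4 := LinearEquiv.finrank_eq (LinearEquiv.ofBijective _ ((D v).bij _ (hρ.comp (hr v))))
  rw [h4]
  exact (Subspace.dual_finrank_eq).symm

include D hG2 hF hχ hRec in
/-- The equality of dimensions for a module satisfying the Euler characteristic inequality. -/
theorem sha_eq_of_euler [Nonempty ι] {W : Type} [AddCommGroup W] [Module k W]
    [FiniteDimensional k W] (σ : Representation k G W) (hσ : Smooth L σ) (d : ℕ)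
    (f1 : FiniteDimensional k (LC.H1 σ L)) (f1' : FiniteDimensional k (LC.H1 (dtw σ χ) L))
    (e : 2 * (finrank k (LC.H0 σ) + finrank k (LC.H2 σ L)) + d ≤ 2 * finrank k (LC.H1 σ L))
    (e' : 2 * (finrank k (LC.H0 (dtw σ χ)) + finrank k (LC.H2 (dtw σ χ) L)) + d ≤
      2 * finrank k (LC.H1 (dtw σ χ) L))
    (l : ∑ v, finrank k (LC.H1 (σ.comp (r v)) (LΓ v)) =
      ∑ v, finrank k (LC.H0 (σ.comp (r v))) + ∑ v, finrank k (LC.H2 (σ.comp (r v)) (LΓ v)) + d) :
    finrank k (Sha2 L LΓ r hr σ) = finrank k (Sha1 L LΓ r hr (dtw σ χ)) ∧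
    finrank k (Sha2 L LΓ r hr (dtw σ χ)) = finrank k (Sha1 L LΓ r hr σ) := by
  have hT : TailFormula L χ LΓ r hr := tailFormula D hRec hG2 hF hχ
  have hσ' : Smooth L (dtw σ χ) := smooth_dtw hσ hχ
  have t := hT σ hσ
  have t' := hT (dtw σ χ) hσ'
  have c := (sha1_finite_and_le hT hF hχ σ hσ).2
  have c' := (sha1_finite_and_le hT hF hχ (dtw σ χ) hσ').2
  -- double duals
  have d0 : finrank k (LC.H0 (dtw (dtw σ χ) χ)) = finrank k (LC.H0 σ) :=
    ((MorIso.coeff L ddEquiv (ddEquiv_comm σ χ)).H0.finrank_eq).symm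
  have dv : ∀ v, finrank k (LC.H0 (dtw ((dtw σ χ).comp (r v)) (χ.comp (r v)))) =
      finrank k (LC.H0 (σ.comp (r v))) := by
    intro v
    rw [dtw_comp]
    exact ((MorIso.coeff (LΓ v) ddEquiv
      (ddEquiv_comm (σ.comp (r v)) (χ.comp (r v)))).H0.finrank_eq).symm
  have ds : finrank k (Sha1 L LΓ r hr (dtw (dtw σ χ) χ)) = finrank k (Sha1 L LΓ r hr σ) :=
    ((sha1Equiv L LΓ r hr ddEquiv (ddEquiv_comm σ χ)).finrank_eq).symm
  rw [d0, Finset.sum_congr rfl fun v _ => dv v] at t'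
  rw [ds] at c'
  have o := finrank_H1_add_le (hr := hr) D hRec hχ σ hσ
  have b : ∑ v, finrank k (LC.H2 (σ.comp (r v)) (LΓ v)) =
      ∑ v, finrank k (LC.H0 (dtw (σ.comp (r v)) (χ.comp (r v)))) :=
    Finset.sum_congr rfl fun v _ => finrank_H2_local D σ hσ hr v
  exact numeric t t' o e e' l b c c'

end

section Main

variable (D : ∀ v, LocalDuality (LΓ v) (χ.comp (r v)) (δ v))
  {p : ℕ} [Fact p.Prime] [CharP k p] [Finite k]

include p in
theorem finH2_of_finUnip (hχ : ContChar L χ) (hFU : FinUnip L χ) : FinH2 (k := k) L := by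
  intro V _ _ _ ρ hρ
  obtain ⟨N, hN, hNχ, htriv⟩ := exists_level_trivial_le hρ (U := χ.ker) (by
    obtain ⟨N, hN, h⟩ := hχ; exact ⟨N, hN, h⟩)
  obtain ⟨P, hP, hPχ, hidx, hpow⟩ := exists_sylow (k := k) (p := p) hN hNχ
  refine (hFU hP hPχ hidx ρ hρ ?_).2
  refine unip_of_pow (p := p) _ fun g => ?_
  obtain ⟨m, hm⟩ := hpow g g.2
  exact ⟨m, htriv _ hm⟩

include D p in
/-- **Numerical Poitou–Tate duality** -/
theorem poitouTate_aux [Nonempty ι] (hδ : ∑ v, δ v = 1)
    (hRec : HRec L χ LΓ r hr fun v => (D v).inv) (hG2 : HG2 L χ LΓ r hr)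
    (hEF : EulerFun L χ) (hFU : FinUnip L χ) (hLE : LocalEulerFun L χ LΓ r δ)
    (hχ : ContChar L χ)
    {V : Type} [AddCommGroup V] [Module k V] [FiniteDimensional k V]
    (ρ : Representation k G V) (hρ : Smooth L ρ) :
    FiniteDimensional k (Sha2 L LΓ r hr ρ) ∧ FiniteDimensional k (Sha1 L LΓ r hr (dtw ρ χ)) ∧
    finrank k (Sha2 L LΓ r hr ρ) = finrank k (Sha1 L LΓ r hr (dtw ρ χ)) := by
  classical
  have hF : FinH2 (k := k) L := finH2_of_finUnip (p := p) hχ hFU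
  have hT : TailFormula L χ LΓ r hr := tailFormula D hRec hG2 hF hχ
  obtain ⟨N, hN, hNχ, htriv⟩ := exists_level_trivial_le hρ (U := χ.ker) (by
    obtain ⟨N, hN, h⟩ := hχ; exact ⟨N, hN, h⟩)
  obtain ⟨P, hP, hPχ, hidx, hpow⟩ := exists_sylow (k := k) (p := p) hN hNχ
  have hu : Unip (ρ.comp P.subtype) := by
    refine unip_of_pow (p := p) _ fun g => ?_
    obtain ⟨m, hm⟩ := hpow g g.2
    exact ⟨m, htriv _ hm⟩
  have hu' : Unip ((dtw ρ χ).comp P.subtype) := by
    refine unip_of_pow (p := p) _ fun g => ?_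
    obtain ⟨m, hm⟩ := hpow g g.2
    refine ⟨m, ?_⟩
    refine LinearMap.ext fun f => LinearMap.ext fun v => ?_
    have h1 : ρ ((g : G) ^ p ^ m)⁻¹ = 1 := htriv _ (N.inv_mem hm)
    have h2 : χ ((g : G) ^ p ^ m) = 1 := hNχ hm
    show dtw ρ χ ((g : G) ^ p ^ m) f v = f v
    rw [dtw_apply_apply, h1, h2]
    simp
  have hρ' : Smooth L (dtw ρ χ) := smooth_dtw hρ hχ
  have hfinq : Finite (G ⧸ P) := finite_quot hP
  let _ : Fintype (G ⧸ P) := Fintype.ofFinite _
  have hcard : Fintype.card (G ⧸ P) = P.index := by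
    rw [Subgroup.index, Nat.card_eq_fintype_card]
  -- the induced modules
  set σ := funRep (permQ P) ρ with hσdef
  have hσ : Smooth L σ := smooth_funRep (isOpen_ker_quotPerm hP) hρ
  obtain ⟨f1, f2, e⟩ := hEF hP hPχ ρ hρ hu
  obtain ⟨f1', f2', e'⟩ := hEF hP hPχ (dtw ρ χ) hρ' hu'
  let E := MorIso.coeff L (funDual k V (G ⧸ P)) (funDual_comm ρ χ (permQ P))
  have g1' : FiniteDimensional k (LC.H1 (dtw σ χ) L) := LinearEquiv.finiteDimensional E.H1
  have h0eq : finrank k (LC.H0 (funRep (permQ P) (dtw ρ χ))) = finrank k (LC.H0 (dtw σ χ)) :=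
    E.H0.finrank_eq
  have h1eq : finrank k (LC.H1 (funRep (permQ P) (dtw ρ χ)) L) = finrank k (LC.H1 (dtw σ χ) L) :=
    E.H1.finrank_eq
  have h2eq : finrank k (LC.H2 (funRep (permQ P) (dtw ρ χ)) L) = finrank k (LC.H2 (dtw σ χ) L) :=
    E.H2.finrank_eq
  rw [h0eq, h1eq, h2eq, Subspace.dual_finrank_eq] at e'
  have l : ∑ v, finrank k (LC.H1 (σ.comp (r v)) (LΓ v)) =
      ∑ v, finrank k (LC.H0 (σ.comp (r v))) + ∑ v, finrank k (LC.H2 (σ.comp (r v)) (LΓ v)) +
        P.index * finrank k V := by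
    rw [Finset.sum_congr rfl fun v _ => hLE v hP hPχ ρ hρ hu, Finset.sum_add_distrib,
      Finset.sum_add_distrib, ← Finset.sum_mul, ← Finset.sum_mul, hδ, one_mul]
  have key := (sha_eq_of_euler (hr := hr) D hRec hG2 hF hχ σ hσ (P.index * finrank k V) f1 g1' e e'
    l).1
  -- `V` is a direct summand of the induced module
  obtain ⟨τ, ⟨s⟩⟩ := exists_split (ρ := ρ) (σ := σ)
    (LinearMap.pi fun _ : G ⧸ P => LinearMap.id)
    ((P.index : k)⁻¹ • ∑ x : G ⧸ P, LinearMap.proj x)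
    (fun g v => by
      funext x
      rfl)
    (fun g f => by
      simp only [LinearMap.smul_apply, LinearMap.sum_apply, LinearMap.proj_apply, map_smul,
        map_sum, hσdef, funRep_apply]
      congr 1
      exact Equiv.sum_comp (permQ P g)⁻¹ fun x => ρ g (f x))
    (fun v => by
      simp only [LinearMap.smul_apply, LinearMap.sum_apply, LinearMap.proj_apply,
        LinearMap.pi_apply, LinearMap.id_apply, Finset.sum_const, Finset.card_univ, hcard]
      rw [← Nat.cast_smul_eq_nsmul k, smul_smul, inv_mul_cancel₀ hidx, one_smul])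
  have hτ : Smooth L τ := by
    intro u
    obtain ⟨M, hM, hM'⟩ := hσ (s.j u)
    refine ⟨M, hM, fun g hg => ?_⟩
    have h1 : s.j (τ g u) = s.j u := by rw [s.j_comm, hM' g hg]
    rw [← s.qj (τ g u), h1, s.qj]
  have hA := sha1_finite_and_le hT hF hχ σ hσ
  have hB := sha1_finite_and_le hT hF hχ ρ hρ
  have hC := sha1_finite_and_le hT hF hχ τ hτ
  have := hA.1
  have := hF σ hσ
  have := hF ρ hρ
  have k1 := (s.dual χ).finrank_sha1 L LΓ r hr
  have k2 := s.finrank_sha2 L LΓ r hr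
  refine ⟨FiniteDimensional.finiteDimensional_submodule _, hB.1, ?_⟩
  omega

end Main

end Fermat.Agent.CFT.PT
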