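import Fermat.Agent.CFT.PT.Inputs
import Fermat.Agent.CFT.LC.Tools

/-!
# Abstract Poitou–Tate: functoriality of `Sha`, duals, direct sum decompositions
-/

set_option autoImplicit false
set_option linter.unusedSectionVars false

namespace Fermat.Agent.CFT.PT

open Fermat.Agent.CFT.LC Module

section Lin

variable {k : Type} [Field k]

/-- dimension formula for a biproduct -/
theorem finrank_of_biprod {X Y Z : Type} [AddCommGroup X] [Module k X] [AddCommGroup Y]
    [Module k Y] [AddCommGroup Z] [Module k Z] [FiniteDimensional k X]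
    (i : Y →ₗ[k] X) (p : X →ₗ[k] Y) (j : Z →ₗ[k] X) (q : X →ₗ[k] Z)
    (h1 : ∀ y, p (i y) = y) (h2 : ∀ z, q (j z) = z) (h3 : ∀ x, i (p x) + j (q x) = x) :
    finrank k X = finrank k Y + finrank k Z := by
  have hY : FiniteDimensional k Y :=
    FiniteDimensional.of_injective i (Function.LeftInverse.injective h1)
  have hZ : FiniteDimensional k Z :=
    FiniteDimensional.of_injective j (Function.LeftInverse.injective h2)
  have hpj : ∀ z, p (j z) = 0 := by
    intro z
    have h := h3 (j z)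
    rw [h2] at h
    have h4 : i (p (j z)) = 0 := by simpa using h
    rw [← h1 (p (j z)), h4, map_zero]
  have hqi : ∀ y, q (i y) = 0 := by
    intro y
    have h := h3 (i y)
    rw [h1] at h
    have h4 : j (q (i y)) = 0 := by simpa using h
    rw [← h2 (q (i y)), h4, map_zero]
  let e : X ≃ₗ[k] Y × Z :=
    { p.prod q with
      invFun := fun z => i z.1 + j z.2
      left_inv := fun x => h3 x
      right_inv := fun z => by
        refine Prod.ext ?_ ?_
        · show p (i z.1 + j z.2) = z.1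
          rw [map_add, h1, hpj, add_zero]
        · show q (i z.1 + j z.2) = z.2
          rw [map_add, h2, hqi, zero_add] }
  rw [e.finrank_eq, finrank_prod]

end Lin

section Sha

variable {k : Type} [Field k] {G : Type} [Group G] (L : Lvl G)
  {ι : Type} [Fintype ι] {Γ : ι → Type} [∀ v, Group (Γ v)] (LΓ : ∀ v, Lvl (Γ v))
  (r : ∀ v, Γ v →* G) (hr : ∀ v, (LΓ v).Cont L (r v))
  {V : Type} [AddCommGroup V] [Module k V] {ρ : Representation k G V}
  {W : Type} [AddCommGroup W] [Module k W] {σ : Representation k G W}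
  {U : Type} [AddCommGroup U] [Module k U] {τ : Representation k G U}

/-- the map induced on `Ш¹` -/
noncomputable def sha1Map (φ : V →ₗ[k] W) (hφ : ∀ g v, φ (ρ g v) = σ g (φ v)) :
    Sha1 L LΓ r hr ρ →ₗ[k] Sha1 L LΓ r hr σ :=
  (Mor.coeff L φ hφ).H1.restrict fun x hx => by
    rw [mem_Sha1] at hx ⊢
    intro v
    have h : (Mor.res σ (r v) (hr v)).comp (Mor.coeff L φ hφ) =
        (Mor.coeff (LΓ v) φ (fun g w => hφ (r v g) w)).comp (Mor.res ρ (r v) (hr v)) := by
      ext1 <;> rfl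
    rw [← Mor.H1_comp, h, Mor.H1_comp, hx v, map_zero]

/-- the map induced on `Ш²` -/
noncomputable def sha2Map (φ : V →ₗ[k] W) (hφ : ∀ g v, φ (ρ g v) = σ g (φ v)) :
    Sha2 L LΓ r hr ρ →ₗ[k] Sha2 L LΓ r hr σ :=
  (Mor.coeff L φ hφ).H2.restrict fun x hx => by
    rw [mem_Sha2] at hx ⊢
    intro v
    have h : (Mor.res σ (r v) (hr v)).comp (Mor.coeff L φ hφ) =
        (Mor.coeff (LΓ v) φ (fun g w => hφ (r v g) w)).comp (Mor.res ρ (r v) (hr v)) := by
      ext1 <;> rfl
    rw [← Mor.H2_comp, h, Mor.H2_comp, hx v, map_zero]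

@[simp] theorem sha1Map_coe (φ : V →ₗ[k] W) (hφ : ∀ g v, φ (ρ g v) = σ g (φ v))
    (x : Sha1 L LΓ r hr ρ) : (sha1Map L LΓ r hr φ hφ x : LC.H1 σ L) =
      (Mor.coeff L φ hφ).H1 x := rfl

@[simp] theorem sha2Map_coe (φ : V →ₗ[k] W) (hφ : ∀ g v, φ (ρ g v) = σ g (φ v))
    (x : Sha2 L LΓ r hr ρ) : (sha2Map L LΓ r hr φ hφ x : LC.H2 σ L) =
      (Mor.coeff L φ hφ).H2 x := rfl

theorem sha1Map_comp_of (φ : V →ₗ[k] W) (hφ : ∀ g v, φ (ρ g v) = σ g (φ v))
    (ψ : W →ₗ[k] V) (hψ : ∀ g v, ψ (σ g v) = ρ g (ψ v)) (h : ∀ v, ψ (φ v) = v)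
    (x : Sha1 L LΓ r hr ρ) : sha1Map L LΓ r hr ψ hψ (sha1Map L LΓ r hr φ hφ x) = x := by
  refine Subtype.ext ?_
  rw [sha1Map_coe, sha1Map_coe, ← Mor.H1_comp]
  have : (Mor.coeff L ψ hψ).comp (Mor.coeff L φ hφ) = Mor.id ρ L := by
    ext1
    · rfl
    · exact LinearMap.ext h
  rw [this, Mor.H1_id]

theorem sha2Map_comp_of (φ : V →ₗ[k] W) (hφ : ∀ g v, φ (ρ g v) = σ g (φ v))
    (ψ : W →ₗ[k] V) (hψ : ∀ g v, ψ (σ g v) = ρ g (ψ v)) (h : ∀ v, ψ (φ v) = v)
    (x : Sha2 L LΓ r hr ρ) : sha2Map L LΓ r hr ψ hψ (sha2Map L LΓ r hr φ hφ x) = x := by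
  refine Subtype.ext ?_
  rw [sha2Map_coe, sha2Map_coe, ← Mor.H2_comp]
  have : (Mor.coeff L ψ hψ).comp (Mor.coeff L φ hφ) = Mor.id ρ L := by
    ext1
    · rfl
    · exact LinearMap.ext h
  rw [this, Mor.H2_id]

/-- `Ш¹` of isomorphic representations -/
noncomputable def sha1Equiv (e : V ≃ₗ[k] W) (he : ∀ g v, e (ρ g v) = σ g (e v)) :
    Sha1 L LΓ r hr ρ ≃ₗ[k] Sha1 L LΓ r hr σ :=
  have he' : ∀ g w, e.symm (σ g w) = ρ g (e.symm w) := fun g w => by
    apply e.injective
    rw [he, LinearEquiv.apply_symm_apply, LinearEquiv.apply_symm_apply]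
  { sha1Map L LΓ r hr e.toLinearMap he with
    invFun := sha1Map L LΓ r hr e.symm.toLinearMap he'
    left_inv := sha1Map_comp_of L LΓ r hr _ _ _ _ e.symm_apply_apply
    right_inv := sha1Map_comp_of L LΓ r hr _ _ _ _ e.apply_symm_apply }

/-- `Ш²` of isomorphic representations -/
noncomputable def sha2Equiv (e : V ≃ₗ[k] W) (he : ∀ g v, e (ρ g v) = σ g (e v)) :
    Sha2 L LΓ r hr ρ ≃ₗ[k] Sha2 L LΓ r hr σ :=
  have he' : ∀ g w, e.symm (σ g w) = ρ g (e.symm w) := fun g w => by
    apply e.injective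
    rw [he, LinearEquiv.apply_symm_apply, LinearEquiv.apply_symm_apply]
  { sha2Map L LΓ r hr e.toLinearMap he with
    invFun := sha2Map L LΓ r hr e.symm.toLinearMap he'
    left_inv := sha2Map_comp_of L LΓ r hr _ _ _ _ e.symm_apply_apply
    right_inv := sha2Map_comp_of L LΓ r hr _ _ _ _ e.apply_symm_apply }

/-- A direct sum decomposition `W = V ⊕ U`. -/
structure Split (σ : Representation k G W) (ρ : Representation k G V)
    (τ : Representation k G U) where
  /-- inclusion of the first factor -/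
  i : V →ₗ[k] W
  /-- projection to the first factor -/
  p : W →ₗ[k] V
  /-- inclusion of the second factor -/
  j : U →ₗ[k] W
  /-- projection to the second factor -/
  q : W →ₗ[k] U
  i_comm : ∀ g v, i (ρ g v) = σ g (i v)
  p_comm : ∀ g v, p (σ g v) = ρ g (p v)
  j_comm : ∀ g v, j (τ g v) = σ g (j v)
  q_comm : ∀ g v, q (σ g v) = τ g (q v)
  pi : ∀ v, p (i v) = v
  qj : ∀ v, q (j v) = v
  sum : ∀ w, i (p w) + j (q w) = w

variable (s : Split σ ρ τ)

/-- the dual decomposition -/
noncomputable def Split.dual (χ : G →* kˣ) : Split (dtw σ χ) (dtw ρ χ) (dtw τ χ) where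
  i := Module.Dual.transpose s.p
  p := Module.Dual.transpose s.i
  j := Module.Dual.transpose s.q
  q := Module.Dual.transpose s.j
  i_comm g f := LinearMap.ext fun w => by
    simp [dtw_apply_apply, Module.Dual.transpose_apply, s.p_comm]
  p_comm g f := LinearMap.ext fun w => by
    simp [dtw_apply_apply, Module.Dual.transpose_apply, s.i_comm]
  j_comm g f := LinearMap.ext fun w => by
    simp [dtw_apply_apply, Module.Dual.transpose_apply, s.q_comm]
  q_comm g f := LinearMap.ext fun w => by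
    simp [dtw_apply_apply, Module.Dual.transpose_apply, s.j_comm]
  pi f := LinearMap.ext fun v => by simp [Module.Dual.transpose_apply, s.pi]
  qj f := LinearMap.ext fun v => by simp [Module.Dual.transpose_apply, s.qj]
  sum f := LinearMap.ext fun w => by
    simp only [Module.Dual.transpose_apply, LinearMap.add_apply, LinearMap.comp_apply]
    rw [← map_add, s.sum]

include s in
theorem Split.finrank_sha1 [FiniteDimensional k (Sha1 L LΓ r hr σ)] :
    finrank k (Sha1 L LΓ r hr σ) = finrank k (Sha1 L LΓ r hr ρ) + finrank k (Sha1 L LΓ r hr τ) := by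
  refine finrank_of_biprod (sha1Map L LΓ r hr s.i s.i_comm) (sha1Map L LΓ r hr s.p s.p_comm)
    (sha1Map L LΓ r hr s.j s.j_comm) (sha1Map L LΓ r hr s.q s.q_comm)
    (sha1Map_comp_of _ _ _ _ _ _ _ _ s.pi) (sha1Map_comp_of _ _ _ _ _ _ _ _ s.qj) ?_
  intro x
  refine Subtype.ext ?_
  rw [Submodule.coe_add, sha1Map_coe, sha1Map_coe, sha1Map_coe, sha1Map_coe, ← Mor.H1_comp,
    ← Mor.H1_comp]
  have := Mor.H1_add_of (m₁ := (Mor.coeff L s.i s.i_comm).comp (Mor.coeff L s.p s.p_comm))
    (m₂ := (Mor.coeff L s.j s.j_comm).comp (Mor.coeff L s.q s.q_comm)) (m₃ := Mor.id σ L)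
    rfl rfl (LinearMap.ext s.sum) (x : LC.H1 σ L)
  rw [this, Mor.H1_id]

include s in
theorem Split.finrank_sha2 [FiniteDimensional k (Sha2 L LΓ r hr σ)] :
    finrank k (Sha2 L LΓ r hr σ) = finrank k (Sha2 L LΓ r hr ρ) + finrank k (Sha2 L LΓ r hr τ) := by
  refine finrank_of_biprod (sha2Map L LΓ r hr s.i s.i_comm) (sha2Map L LΓ r hr s.p s.p_comm)
    (sha2Map L LΓ r hr s.j s.j_comm) (sha2Map L LΓ r hr s.q s.q_comm)
    (sha2Map_comp_of _ _ _ _ _ _ _ _ s.pi) (sha2Map_comp_of _ _ _ _ _ _ _ _ s.qj) ?_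
  intro x
  refine Subtype.ext ?_
  rw [Submodule.coe_add, sha2Map_coe, sha2Map_coe, sha2Map_coe, sha2Map_coe, ← Mor.H2_comp,
    ← Mor.H2_comp]
  have := Mor.H2_add_of (m₁ := (Mor.coeff L s.i s.i_comm).comp (Mor.coeff L s.p s.p_comm))
    (m₂ := (Mor.coeff L s.j s.j_comm).comp (Mor.coeff L s.q s.q_comm)) (m₃ := Mor.id σ L)
    rfl rfl (LinearMap.ext s.sum) (x : LC.H2 σ L)
  rw [this, Mor.H2_id]

/-- A retract is a direct summand. -/
theorem exists_split {ρ : Representation k G V} {σ : Representation k G W}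
    (i : V →ₗ[k] W) (p : W →ₗ[k] V) (hi : ∀ g v, i (ρ g v) = σ g (i v))
    (hp : ∀ g v, p (σ g v) = ρ g (p v)) (hpi : ∀ v, p (i v) = v) :
    ∃ τ : Representation k G (LinearMap.ker p), Nonempty (Split σ ρ τ) := by
  have hker : ∀ g, ∀ w ∈ LinearMap.ker p, σ g w ∈ LinearMap.ker p := by
    intro g w hw
    rw [LinearMap.mem_ker] at hw ⊢
    rw [hp, hw, map_zero]
  let τ : Representation k G (LinearMap.ker p) :=
    { toFun := fun g => (σ g).restrict (hker g)
      map_one' := by
        refine LinearMap.ext fun w => Subtype.ext ?_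
        rw [LinearMap.coe_restrict_apply, map_one]
        rfl
      map_mul' := fun g h => by
        refine LinearMap.ext fun w => Subtype.ext ?_
        rw [LinearMap.coe_restrict_apply, map_mul]
        rfl }
  refine ⟨τ, ⟨{
    i := i
    p := p
    j := (LinearMap.ker p).subtype
    q := (LinearMap.id - i ∘ₗ p).codRestrict (LinearMap.ker p) fun w => by
      rw [LinearMap.mem_ker, LinearMap.sub_apply, map_sub, LinearMap.comp_apply, hpi,
        LinearMap.id_apply, sub_self]
    i_comm := hi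
    p_comm := hp
    j_comm := fun g w => rfl
    q_comm := fun g w => Subtype.ext ?_
    pi := hpi
    qj := fun w => Subtype.ext ?_
    sum := fun w => ?_ }⟩⟩
  · show σ g w - i (p (σ g w)) = σ g (w - i (p w))
    rw [hp, hi, map_sub]
  · have : p w = 0 := w.2
    show (w : W) - i (p w) = w
    rw [this, map_zero, sub_zero]
  · show i (p w) + (w - i (p w)) = w
    abel

end Sha

section Dual

variable {k : Type} [Field k] {G : Type} [Group G]
  {V : Type} [AddCommGroup V] [Module k V] [FiniteDimensional k V]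
  (ρ : Representation k G V) (χ : G →* kˣ)

/-- the double dual -/
noncomputable abbrev ddEquiv : V ≃ₗ[k] Dual k (Dual k V) := evalEquiv k V

theorem ddEquiv_comm (g : G) (v : V) :
    ddEquiv (k := k) (V := V) (ρ g v) = dtw (dtw ρ χ) χ g (ddEquiv v) := by
  refine LinearMap.ext fun f => ?_
  rw [dtw_apply_apply]
  simp only [evalEquiv_apply, Dual.eval_apply, dtw_apply_apply, inv_inv]
  rw [← mul_assoc, ← Units.val_mul, ← map_mul, mul_inv_cancel, map_one, Units.val_one, one_mul]

variable {X : Type} [Fintype X] [DecidableEq X] (π : G →* Equiv.Perm X)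

omit [FiniteDimensional k V] in
/-- the dual of functions -/
noncomputable def funDual (k V X : Type) [Field k] [AddCommGroup V] [Module k V] [Fintype X]
    [DecidableEq X] : (X → Dual k V) ≃ₗ[k] Dual k (X → V) :=
  LinearMap.lsum k (fun _ : X => V) k

omit [FiniteDimensional k V] in
theorem funDual_apply (F : X → Dual k V) (f : X → V) : funDual k V X F f = ∑ x, F x (f x) := by
  simp [funDual, LinearMap.lsum_apply, LinearMap.sum_apply]

omit [FiniteDimensional k V] in
theorem funDual_comm (g : G) (F : X → Dual k V) :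
    funDual k V X (funRep π (dtw ρ χ) g F) = dtw (funRep π ρ) χ g (funDual k V X F) := by
  refine LinearMap.ext fun f => ?_
  rw [dtw_apply_apply, funDual_apply, funDual_apply, Finset.mul_sum]
  rw [← Equiv.sum_comp (π g)]
  refine Finset.sum_congr rfl fun x _ => ?_
  rw [funRep_apply, dtw_apply_apply, funRep_apply, map_inv π, inv_inv, ← Equiv.Perm.mul_apply,
    inv_mul_cancel, Equiv.Perm.one_apply]

end Dual

end Fermat.Agent.CFT.PT
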