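import Fermat.Agent.CFT.PT.Ext
import Fermat.Agent.CFT.PT.Inputs

/-!
# Abstract Poitou–Tate: the tail formula

From local duality, reciprocity and `HG2` we deduce
`dim Ш²(V) + Σ_v h⁰(Γ_v, V') = h²(G, V) + h⁰(G, V')`.
-/

set_option autoImplicit false
set_option linter.unusedSectionVars false

namespace Fermat.Agent.CFT.PT

open Fermat.Agent.CFT.LC Module

section Glue

variable {k : Type} [Field k] {ι : Type} [Fintype ι] {A B : ι → Type}
  [∀ v, AddCommMonoid (A v)] [∀ v, Module k (A v)] [∀ v, AddCommMonoid (B v)]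
  [∀ v, Module k (B v)]

/-- gluing of pairings -/
noncomputable def glue (b : ∀ v, A v →ₗ[k] B v →ₗ[k] k) : (∀ v, A v) →ₗ[k] (∀ v, B v) →ₗ[k] k :=
  ∑ v, (b v).compl₁₂ (LinearMap.proj v) (LinearMap.proj v)

@[simp] theorem glue_apply (b : ∀ v, A v →ₗ[k] B v →ₗ[k] k) (x : ∀ v, A v) (y : ∀ v, B v) :
    glue b x y = ∑ v, b v (x v) (y v) := by
  simp [glue, LinearMap.sum_apply]

theorem glue_single [DecidableEq ι] (b : ∀ v, A v →ₗ[k] B v →ₗ[k] k) (v : ι) (a : A v)
    (y : ∀ v, B v) : glue b (Pi.single v a) y = b v a (y v) := by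
  rw [glue_apply, Finset.sum_eq_single v]
  · simp
  · intro w _ hw
    rw [Pi.single_eq_of_ne hw]; simp
  · simp

theorem glue_flip_bijective (b : ∀ v, A v →ₗ[k] B v →ₗ[k] k)
    (hb : ∀ v, Function.Bijective (b v).flip) : Function.Bijective (glue b).flip := by
  classical
  constructor
  · intro y y' hy
    funext v
    apply (hb v).1
    refine LinearMap.ext fun a => ?_
    have := LinearMap.congr_fun hy (Pi.single v a)
    rwa [LinearMap.flip_apply, LinearMap.flip_apply, glue_single, glue_single] at this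
  · intro F
    have h : ∀ v, ∃ y : B v, (b v).flip y = F ∘ₗ LinearMap.single k A v := fun v => (hb v).2 _
    choose y hy using h
    refine ⟨y, ?_⟩
    refine LinearMap.pi_ext fun v a => ?_
    rw [LinearMap.flip_apply, glue_single]
    have := LinearMap.congr_fun (hy v) a
    rwa [LinearMap.flip_apply] at this

/-- rank–nullity with an `AddCommMonoid` target (avoids instance problems for products). -/
theorem finrank_range_ker {X A : Type} [AddCommGroup X] [Module k X] [AddCommMonoid A]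
    [Module k A] [FiniteDimensional k X] (f : X →ₗ[k] A) :
    finrank k (LinearMap.range f) + finrank k (LinearMap.ker f) = finrank k X := by
  let := Module.addCommMonoidToAddCommGroup k (M := A)
  exact LinearMap.finrank_range_add_finrank_ker f

/-- dimension of a product, with `AddCommMonoid` factors -/
theorem finrank_pi_monoid {ι : Type} [Fintype ι] (A : ι → Type) [∀ v, AddCommMonoid (A v)]
    [∀ v, Module k (A v)] [∀ v, Module.Finite k (A v)] :
    finrank k (∀ v, A v) = ∑ v, finrank k (A v) := by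
  let : ∀ v, AddCommGroup (A v) := fun v => Module.addCommMonoidToAddCommGroup k (M := A v)
  exact finrank_pi_fintype k

/-- In a space with a perfect pairing, annihilators have the right dimension. -/
theorem finrank_ann {A B : Type} [AddCommMonoid A] [Module k A] [AddCommMonoid B] [Module k B]
    [Module.Finite k A] (b : A →ₗ[k] B →ₗ[k] k) (hb : Function.Bijective b.flip)
    (W : Submodule k A) (K : Submodule k B) (hK : ∀ y, y ∈ K ↔ ∀ x ∈ W, b x y = 0) :
    finrank k K + finrank k W = finrank k A := by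
  let := Module.addCommMonoidToAddCommGroup k (M := A)
  let e : B ≃ₗ[k] Dual k A := LinearEquiv.ofBijective b.flip hb
  have h1 : K.map e.toLinearMap = W.dualAnnihilator := by
    ext F
    rw [Submodule.mem_map, Submodule.mem_dualAnnihilator]
    constructor
    · rintro ⟨y, hy, rfl⟩ x hx
      exact (hK y).mp hy x hx
    · intro hF
      refine ⟨e.symm F, (hK _).mpr fun x hx => ?_, e.apply_symm_apply F⟩
      have h2 : b x (e.symm F) = e (e.symm F) x := rfl
      rw [h2, e.apply_symm_apply]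
      exact hF x hx
  have h2 : finrank k K = finrank k W.dualAnnihilator := by
    rw [← h1]
    exact (LinearEquiv.finrank_map_eq e K).symm
  rw [h2, add_comm]
  exact Subspace.finrank_add_finrank_dualAnnihilator_eq W

end Glue

section Tail

variable {k : Type} [Field k] {G : Type} [Group G] {L : Lvl G} {χ : G →* kˣ}
  {ι : Type} [Fintype ι] {Γ : ι → Type} [∀ v, Group (Γ v)] {LΓ : ∀ v, Lvl (Γ v)}
  {r : ∀ v, Γ v →* G} {hr : ∀ v, (LΓ v).Cont L (r v)} {δ : ι → ℕ}
  (D : ∀ v, LocalDuality (LΓ v) (χ.comp (r v)) (δ v))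

/-- the total pairing between local `H²` and local `H⁰` of the dual -/
noncomputable def tot20 {V : Type} [AddCommGroup V] [Module k V] (ρ : Representation k G V) :
    (∀ v, LC.H2 (ρ.comp (r v)) (LΓ v)) →ₗ[k]
      (∀ v, LC.H0 (dtw (ρ.comp (r v)) (χ.comp (r v)))) →ₗ[k] k :=
  glue fun v => pair20 (χ.comp (r v)) (D v).inv (ρ.comp (r v))

theorem tot20_apply {V : Type} [AddCommGroup V] [Module k V] (ρ : Representation k G V)
    (x : ∀ v, LC.H2 (ρ.comp (r v)) (LΓ v))
    (y : ∀ v, LC.H0 (dtw (ρ.comp (r v)) (χ.comp (r v)))) :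
    tot20 D ρ x y = ∑ v, pair20 (χ.comp (r v)) (D v).inv (ρ.comp (r v)) (x v) (y v) := by
  rw [tot20, glue_apply]

theorem tot20_bijective {V : Type} [AddCommGroup V] [Module k V] [FiniteDimensional k V]
    (ρ : Representation k G V) (hρ : Smooth L ρ) (hr : ∀ v, (LΓ v).Cont L (r v)) :
    Function.Bijective (tot20 D ρ).flip :=
  glue_flip_bijective _ fun v => (D v).bij _ (hρ.comp (hr v))

/-- global invariants pair to zero with global classes -/
theorem tot20_global (hRec : HRec L χ LΓ r hr fun v => (D v).inv)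
    {V : Type} [AddCommGroup V] [Module k V] (ρ : Representation k G V)
    (z : LC.H2 ρ L) (y : LC.H0 (dtw ρ χ)) :
    tot20 D ρ (loc2 L LΓ r hr ρ z) (fun v => (resDtw ρ χ (r v) (hr v)).H0 y) = 0 := by
  rw [tot20_apply]
  have h := hRec (cup20 (evp_isPairing ρ χ) L z y)
  rw [← h]
  refine Finset.sum_congr rfl fun v _ => ?_
  rw [← cup20_res]
  rfl

variable (hRec : HRec L χ LΓ r hr fun v => (D v).inv) (hG2 : HG2 L χ LΓ r hr)
  (hF : FinH2 (k := k) L) (hχ : ContChar L χ)

section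

variable {V : Type} [AddCommGroup V] [Module k V] (ρ : Representation k G V)
  (N : Subgroup G)

/-- the vector attached to a coset -/
noncomputable def wvec (χ : G →* kˣ) (u : V) (x : G ⧸ N) : V :=
  ((χ x.out : kˣ)⁻¹ : kˣ).1 • ρ x.out u

theorem wvec_mk (hN : ∀ g ∈ N, ρ g = 1) (hN' : N ≤ χ.ker) (u : V) (g : G) :
    wvec ρ N χ u (g : G ⧸ N) = ((χ g : kˣ)⁻¹ : kˣ).1 • ρ g u := by
  obtain ⟨n, hn⟩ := QuotientGroup.mk_out_eq_mul N g
  have h1 : ρ (n : G) = 1 := hN _ n.2
  have h2 : χ (n : G) = 1 := hN' n.2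
  rw [wvec, hn, map_mul, map_mul, h1, h2, mul_one, mul_one]

theorem wvec_smul (hN : ∀ g ∈ N, ρ g = 1) (hN' : N ≤ χ.ker) (u : V) (g : G) (x : G ⧸ N) :
    wvec ρ N χ u (g • x) = ((χ g : kˣ)⁻¹ : kˣ).1 • ρ g (wvec ρ N χ u x) := by
  induction x using QuotientGroup.induction_on with
  | H h =>
    rw [MulAction.Quotient.smul_coe, smul_eq_mul, wvec_mk ρ N hN hN', wvec_mk ρ N hN hN',
      map_smul, smul_smul, ← Units.val_mul, ← mul_inv, ← map_mul, ← Module.End.mul_apply,
      ← map_mul ρ]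

variable [Fintype (G ⧸ N)]

/-- The equivariant map `Fun(G/N, μ) → V` attached to a vector of `V`. -/
noncomputable def jmap (χ : G →* kˣ) (u : V) : ((G ⧸ N) → k) →ₗ[k] V where
  toFun f := ∑ x, f x • wvec ρ N χ u x
  map_add' f g := by simp [add_smul, Finset.sum_add_distrib]
  map_smul' c f := by simp [mul_smul, Finset.smul_sum]

@[simp] theorem jmap_apply (u : V) (f : (G ⧸ N) → k) :
    jmap ρ N χ u f = ∑ x, f x • wvec ρ N χ u x := rfl

theorem jmap_single [DecidableEq (G ⧸ N)] (u : V) (x : G ⧸ N) :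
    jmap ρ N χ u (Pi.single x 1) = wvec ρ N χ u x := by
  rw [jmap_apply, Finset.sum_eq_single x]
  · simp
  · intro y _ hy; simp [hy]
  · simp

theorem jmap_comm (hN : ∀ g ∈ N, ρ g = 1) (hN' : N ≤ χ.ker) (u : V) (g : G)
    (f : (G ⧸ N) → k) :
    jmap ρ N χ u (funRep (permQ N) (mu χ) g f) = ρ g (jmap ρ N χ u f) := by
  rw [jmap_apply, jmap_apply, map_sum]
  rw [← Equiv.sum_comp (permQ N g)]
  refine Finset.sum_congr rfl fun x _ => ?_
  rw [funRep_apply, mu_apply, ← Equiv.Perm.mul_apply, inv_mul_cancel, Equiv.Perm.one_apply]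
  have : permQ N g x = g • x := rfl
  rw [this, wvec_smul ρ N hN hN', smul_smul, map_smul, mul_right_comm, ← Units.val_mul,
    mul_inv_cancel, Units.val_one, one_mul]

end

include hG2 hF hχ hRec in
/-- The key step: families of local invariants orthogonal to global classes are global. -/
theorem tail_global [Nonempty ι] {V : Type} [AddCommGroup V] [Module k V] [FiniteDimensional k V]
    (ρ : Representation k G V) (hρ : Smooth L ρ)
    (φ : ∀ v, LC.H0 (dtw (ρ.comp (r v)) (χ.comp (r v))))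
    (hφ : ∀ z, tot20 D ρ (loc2 L LΓ r hr ρ z) φ = 0) :
    ∃ y : LC.H0 (dtw ρ χ), ∀ v, φ v = (resDtw ρ χ (r v) (hr v)).H0 y := by
  classical
  obtain ⟨N₀, hN₀, hle₀, htriv₀⟩ := exists_level_trivial_le hρ (U := χ.ker) (by
    obtain ⟨N, hN, h⟩ := hχ; exact ⟨N, hN, h⟩)
  obtain ⟨N, hN, hNN₀, hNχ, hdim⟩ := hG2 N₀ hN₀
  have hNtriv : ∀ g ∈ N, ρ g = 1 := fun g hg => htriv₀ g (hNN₀ hg)
  have := L.finiteIndex N hN
  have := L.normal N hN
  let : Fintype (G ⧸ N) := Fintype.ofFinite _
  set I := funRep (permQ N) (mu χ) with hI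
  have hker : L.IsOpen (permQ N).ker := by
    refine ⟨N, hN, fun n hn => ?_⟩
    rw [MonoidHom.mem_ker]
    ext x
    induction x using QuotientGroup.induction_on with
    | H h =>
      show n • (h : G ⧸ N) = h
      rw [MulAction.Quotient.smul_coe, smul_eq_mul, QuotientGroup.eq, mul_inv_rev, mul_assoc]
      have := (L.normal N hN).conj_mem n⁻¹ (N.inv_mem hn) h⁻¹
      rw [inv_inv] at this
      rwa [mul_assoc] at this
  have hIs : Smooth L I := smooth_funRep hker (smooth_mu hχ)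
  -- the pairing for `I`
  have : ∀ v, FiniteDimensional k (LC.H2 (I.comp (r v)) (LΓ v)) := fun v =>
    (D v).fin2 _ (hIs.comp (hr v))
  set W := LinearMap.range (loc2 L LΓ r hr I) with hW
  let K : Submodule k (∀ v, LC.H0 (dtw (I.comp (r v)) (χ.comp (r v)))) :=
    { carrier := {y | ∀ x ∈ W, tot20 D I x y = 0}
      add_mem' := fun {a b} ha hb x hx => by rw [map_add, ha x hx, hb x hx, add_zero]
      zero_mem' := fun x _ => map_zero _
      smul_mem' := fun c a ha x hx => by rw [map_smul, ha x hx, smul_zero] }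
  have hK : ∀ y, y ∈ K ↔ ∀ x ∈ W, tot20 D I x y = 0 := fun y => Iff.rfl
  have hann := finrank_ann (tot20 D I) (tot20_bijective D I hIs hr) W K hK
  have hK1 : finrank k K ≤ 1 := by omega
  -- the augmentation
  have hε0 : LinearMap.lsum k (fun _ : G ⧸ N => k) k (fun _ => LinearMap.id) ∈
      LC.H0 (dtw I χ) := by
    rw [mem_H0]
    intro g
    refine LinearMap.ext fun f => ?_
    rw [dtw_apply_apply]
    simp only [LinearMap.lsum_apply, LinearMap.sum_apply, LinearMap.comp_apply,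
      LinearMap.proj_apply, LinearMap.id_apply, hI, funRep_apply, mu_apply, Finset.mul_sum]
    rw [← Equiv.sum_comp (permQ N g)⁻¹]
    refine Finset.sum_congr rfl fun x _ => ?_
    rw [← mul_assoc, map_inv χ, ← Units.val_mul, mul_inv_cancel, Units.val_one, one_mul,
      map_inv (permQ N), inv_inv, ← Equiv.Perm.mul_apply, mul_inv_cancel, Equiv.Perm.one_apply]
  set ε : LC.H0 (dtw I χ) := ⟨_, hε0⟩ with hε
  have hεapp : ∀ f : (G ⧸ N) → k, (ε : Dual k ((G ⧸ N) → k)) f = ∑ x, f x := by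
    intro f
    simp [hε, LinearMap.lsum_apply, LinearMap.sum_apply]
  set E : ∀ v, LC.H0 (dtw (I.comp (r v)) (χ.comp (r v))) :=
    fun v => (resDtw I χ (r v) (hr v)).H0 ε with hE
  have hEK : E ∈ K := by
    rw [hK]
    rintro _ ⟨z, rfl⟩
    exact tot20_global D hRec I z ε
  have hE0 : E ≠ 0 := by
    intro h
    obtain ⟨v⟩ := ‹Nonempty ι›
    have h1 := congrArg Subtype.val (congrFun h v)
    have h2 := congrArg (fun F : Dual k ((G ⧸ N) → k) => F (Pi.single 1 1)) h1
    have h3 : (ε : Dual k ((G ⧸ N) → k)) (Pi.single 1 1) = 0 := h2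
    rw [hεapp] at h3
    simp at h3
  -- proportionality
  have hprop : ∀ y ∈ K, ∃ c : k, y = c • E := by
    intro y hy
    have h1 : (⟨E, hEK⟩ : K) ≠ 0 := fun h => hE0 (congrArg Subtype.val h)
    have h2 := (finrank_le_one_iff.mp hK1)
    obtain ⟨w, hw⟩ := h2
    obtain ⟨a, ha⟩ := hw ⟨E, hEK⟩
    obtain ⟨b, hb⟩ := hw ⟨y, hy⟩
    have ha0 : a ≠ 0 := by
      rintro rfl
      rw [zero_smul] at ha
      exact h1 ha.symm
    refine ⟨b * a⁻¹, ?_⟩
    have h3 : (⟨y, hy⟩ : K) = (b * a⁻¹) • ⟨E, hEK⟩ := by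
      rw [← ha, ← hb, smul_smul, mul_assoc, inv_mul_cancel₀ ha0, mul_one]
    exact congrArg Subtype.val h3
  -- apply to `j_u`
  have hcomm : ∀ u g f, jmap ρ N χ u (I g f) = ρ g (jmap ρ N χ u f) := fun u g f =>
    jmap_comm ρ N hNtriv hNχ u g f
  have key : ∀ u : V, ∃ c : k, ∀ v (f : (G ⧸ N) → k),
      (φ v : Dual k V) (jmap ρ N χ u f) = c * ∑ x, f x := by
    intro u
    have hy : (fun v => pullH0 (ρ := I.comp (r v)) (σ := ρ.comp (r v)) (χ.comp (r v))
        (jmap ρ N χ u) (fun g f => hcomm u (r v g) f) (φ v)) ∈ K := by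
      rw [hK]
      rintro _ ⟨z, rfl⟩
      rw [tot20_apply]
      have h1 := hφ ((Mor.coeff L (jmap ρ N χ u) (hcomm u)).H2 z)
      rw [tot20_apply] at h1
      rw [← h1]
      refine Finset.sum_congr rfl fun v _ => ?_
      rw [← pair20_pull, loc2_apply, loc2_apply, ← Mor.H2_comp, ← Mor.H2_comp]
      congr 1
    obtain ⟨c, hc⟩ := hprop _ hy
    refine ⟨c, fun v f => ?_⟩
    have h1 := congrArg Subtype.val (congrFun hc v)
    have h2 := congrArg (fun F : Dual k ((G ⧸ N) → k) => F f) h1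
    have h3 : (φ v : Dual k V) (jmap ρ N χ u f) = c * (ε : Dual k ((G ⧸ N) → k)) f := h2
    rw [h3, hεapp]
  choose c hc using key
  have hone : ∀ u, wvec ρ N χ u (1 : G ⧸ N) = u := by
    intro u
    have := wvec_mk ρ N hNtriv hNχ u 1
    rw [QuotientGroup.mk_one] at this
    rw [this]; simp
  have hval : ∀ v u, (φ v : Dual k V) u = c u := by
    intro v u
    have := hc u v (Pi.single 1 1)
    rw [jmap_single, hone] at this
    rw [this]; simp
  have hequiv : ∀ v g u, (φ v : Dual k V) (ρ g u) = (χ g : k) * (φ v : Dual k V) u := by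
    intro v g u
    have := hc u v (Pi.single (g : G ⧸ N) 1)
    rw [jmap_single, wvec_mk ρ N hNtriv hNχ, map_smul] at this
    have h1 : (∑ x, (Pi.single (g : G ⧸ N) (1 : k) : (G ⧸ N) → k) x) = 1 := by simp
    rw [h1, mul_one, ← hval v u] at this
    rw [← this, smul_eq_mul, ← mul_assoc, ← Units.val_mul, mul_inv_cancel, Units.val_one, one_mul]
  obtain ⟨v₀⟩ := ‹Nonempty ι›
  refine ⟨⟨φ v₀, ?_⟩, fun v => Subtype.ext (LinearMap.ext fun u => ?_)⟩
  · rw [mem_H0]
    intro g
    refine LinearMap.ext fun u => ?_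
    rw [dtw_apply_apply, ← hequiv, ← Module.End.mul_apply, ← map_mul, mul_inv_cancel, map_one,
      Module.End.one_apply]
  · show (φ v : Dual k V) u = (φ v₀ : Dual k V) u
    rw [hval, hval]

include D hG2 hF hχ hRec in
theorem tailFormula [Nonempty ι] : TailFormula L χ LΓ r hr := by
  intro V _ _ _ ρ hρ
  have := hF ρ hρ
  have : ∀ v, FiniteDimensional k (LC.H2 (ρ.comp (r v)) (LΓ v)) := fun v =>
    (D v).fin2 _ (hρ.comp (hr v))
  have hrk := finrank_range_ker (loc2 L LΓ r hr ρ)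
  set W := LinearMap.range (loc2 L LΓ r hr ρ) with hW
  -- the diagonal map
  let Δ : LC.H0 (dtw ρ χ) →ₗ[k] (∀ v, LC.H0 (dtw (ρ.comp (r v)) (χ.comp (r v)))) :=
    LinearMap.pi fun v => (resDtw ρ χ (r v) (hr v)).H0
  have hΔinj : Function.Injective Δ := by
    intro a b h
    obtain ⟨v⟩ := ‹Nonempty ι›
    have h1 := congrArg Subtype.val (congrFun h v)
    exact Subtype.ext h1
  have hann := finrank_ann (tot20 D ρ) (tot20_bijective D ρ hρ hr) W (LinearMap.range Δ) (by
    intro y
    constructor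
    · rintro ⟨y, rfl⟩ _ ⟨z, rfl⟩
      exact tot20_global D hRec ρ z y
    · intro h
      obtain ⟨y', hy'⟩ := tail_global D hRec hG2 hF hχ ρ hρ y (fun z => h _ ⟨z, rfl⟩)
      exact ⟨y', funext fun v => (hy' v).symm⟩)
  have h1 : finrank k (LinearMap.range Δ) = finrank k (LC.H0 (dtw ρ χ)) :=
    LinearMap.finrank_range_of_inj hΔinj
  have h2 : finrank k (∀ v, LC.H2 (ρ.comp (r v)) (LΓ v)) =
      ∑ v, finrank k (LC.H0 (dtw (ρ.comp (r v)) (χ.comp (r v)))) := by
    have h3 : finrank k (∀ v, LC.H2 (ρ.comp (r v)) (LΓ v)) =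
        ∑ v, finrank k (LC.H2 (ρ.comp (r v)) (LΓ v)) := finrank_pi_monoid _
    rw [h3]
    refine Finset.sum_congr rfl fun v _ => ?_
    have h4 := LinearEquiv.finrank_eq (LinearEquiv.ofBijective _ ((D v).bij _ (hρ.comp (hr v))))
    rw [h4]
    exact (Subspace.dual_finrank_eq).symm
  rw [h1, h2] at hann
  have h5 : finrank k (LinearMap.ker (loc2 L LΓ r hr ρ)) = finrank k (Sha2 L LΓ r hr ρ) := rfl
  omega

end Tail

end Fermat.Agent.CFT.PT
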